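import Fermat.Agent.Gal.FiniteLevel

/-!
# Elements fixed by inertia have integral valuation

If `β ≠ 0` is fixed by the inertia group at a place `A` over `ℓ`, then `β / ℓ ^ j` is a unit at `A`
for some integer `j`.
-/

noncomputable section

open scoped NumberField Pointwise
open IntermediateField IsLocalRing

namespace Fermat.Agent.Mazur

local notation "Qbar" => AlgebraicClosure ℚ

/-- `x` is a unit at `A`. -/
def IsUnitAt (A : ValuationSubring Qbar) (x : Qbar) : Prop := A.valuation x = 1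

namespace IsUnitAt

variable {A : ValuationSubring Qbar} {x y : Qbar}

lemma ne_zero (h : IsUnitAt A x) : x ≠ 0 := fun h0 => by simp [IsUnitAt, h0] at h

lemma one : IsUnitAt A 1 := map_one _

lemma mul (hx : IsUnitAt A x) (hy : IsUnitAt A y) : IsUnitAt A (x * y) := by
  simp_all [IsUnitAt]

lemma inv (hx : IsUnitAt A x) : IsUnitAt A x⁻¹ := by simp_all [IsUnitAt]

lemma div (hx : IsUnitAt A x) (hy : IsUnitAt A y) : IsUnitAt A (x / y) := by
  simp_all [IsUnitAt]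

lemma pow (hx : IsUnitAt A x) (n : ℕ) : IsUnitAt A (x ^ n) := by simp_all [IsUnitAt]

lemma iff_mem : IsUnitAt A x ↔ x ∈ A ∧ x ∉ A.nonunits := by
  rw [IsUnitAt, ← A.valuation_le_one_iff, A.mem_nonunits_iff]
  exact ⟨fun h => ⟨h.le, h.not_lt⟩, fun h => le_antisymm h.1 (not_lt.mp h.2)⟩

end IsUnitAt

variable {A : ValuationSubring Qbar} {ℓ : ℕ}

/-- An algebraic integer fixed by inertia at `A` is a unit at `A` times a power of `ℓ`.
-/
lemma exists_unit_mul_zpow_of_integral (hℓ : ℓ.Prime) (hA : A.LiesOverPrime ℓ) {β : Qbar}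
    (hint : IsIntegral ℤ β) (h0 : β ≠ 0)
    (hfix : ∀ σ ∈ A.inertiaSubgroupIn ℚ, σ β = β) :
    ∃ n : ℕ, IsUnitAt A (β / (ℓ : Qbar) ^ n) := by
  classical
  let N := IntermediateField.normalClosure ℚ ℚ⟮β⟯ Qbar
  have : FiniteDimensional ℚ ℚ⟮β⟯ := adjoin.finiteDimensional
    (Algebra.IsAlgebraic.isAlgebraic (R := ℚ) β).isIntegral
  have : NumberField N := @NumberField.mk _ _ inferInstance inferInstance
  have : Normal ℚ N := normalClosure.normal ℚ ℚ⟮β⟯ Qbar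
  have : IsGalois ℚ N := ⟨⟩
  have hβN : β ∈ N := (ℚ⟮β⟯).le_normalClosure (mem_adjoin_simple_self ℚ β)
  set Q := Gal.placePrime A N with hQdef
  set I : Subgroup Gal(N/ℚ) := Q.inertia Gal(N/ℚ) with hIdef
  let F : IntermediateField ℚ N := IntermediateField.fixedField I
  have : NumberField F := @NumberField.mk _ _ inferInstance inferInstance
  have hgal : IsGaloisGroup Gal(N/ℚ) ℤ (𝓞 N) := IsGaloisGroup.of_isFractionRing _ ℤ (𝓞 N) ℚ N
  have : IsGalois F N := inferInstance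
  have hgalF : IsGaloisGroup Gal(N/F) (𝓞 F) (𝓞 N) :=
    IsGaloisGroup.of_isFractionRing _ (𝓞 F) (𝓞 N) F N
  -- `β` lies in `F`
  have hβF : (⟨β, hβN⟩ : N) ∈ F := by
    rw [IntermediateField.mem_fixedField_iff]
    intro g hg
    obtain ⟨σ, hσ, hσg⟩ := Gal.exists_mem_inertia_eqOn hℓ hA N (g.liftNormal Qbar)
        fun x hx hxi => by
      have hxi' : IsIntegral ℤ (⟨x, hx⟩ : N) :=
        (isIntegral_algHom_iff (IsScalarTower.toAlgHom ℤ N Qbar)
          (algebraMap N Qbar).injective).mp hxi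
      have h1 := Gal.mem_placePrime.mp (hg ⟨⟨x, hx⟩, hxi'⟩)
      have h2 : g.liftNormal Qbar x = ((g ⟨x, hx⟩ : N) : Qbar) :=
        g.liftNormal_commutes Qbar ⟨x, hx⟩
      rw [h2]
      simpa using! h1
    refine Subtype.ext ?_
    have h3 : g.liftNormal Qbar β = ((g ⟨β, hβN⟩ : N) : Qbar) :=
      g.liftNormal_commutes Qbar ⟨β, hβN⟩
    rw [← h3, ← hσg β hβN, hfix σ hσ]
  -- the prime of `F`
  set P : Ideal (𝓞 F) := Q.under (𝓞 F) with hPdef
  have hℓQ : ((ℓ : ℕ) : 𝓞 N) ∈ Q := Gal.mem_placePrime.mpr (by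
    simpa [ValuationSubring.LiesOverPrime] using hA)
  have hℓ' : Prime (ℓ : ℤ) := Nat.prime_iff_prime_int.mp hℓ
  have : Q.LiesOver (Ideal.span {(ℓ : ℤ)}) :=
    (Ideal.liesOver_span_iff (inferInstance : Q.IsPrime).ne_top hℓ').mpr (by simpa using hℓQ)
  have hℓP : ((ℓ : ℕ) : 𝓞 F) ∈ P := by
    rw [hPdef, Ideal.under, Ideal.mem_comap, map_natCast]; exact hℓQ
  have : P.LiesOver (Ideal.span {(ℓ : ℤ)}) :=
    (Ideal.liesOver_span_iff (inferInstance : P.IsPrime).ne_top hℓ').mpr (by simpa using hℓP)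
  have : Q.LiesOver P := ⟨rfl⟩
  have hQne : Q ≠ ⊥ := fun h => by
    rw [h, Ideal.mem_bot, Nat.cast_eq_zero] at hℓQ
    exact hℓ.ne_zero hℓQ
  have hPne : P ≠ ⊥ := fun h => by
    rw [h, Ideal.mem_bot, Nat.cast_eq_zero] at hℓP
    exact hℓ.ne_zero hℓP
  have : Q.IsMaximal := Ideal.IsPrime.isMaximal inferInstance hQne
  have : P.IsMaximal := Ideal.IsPrime.isMaximal inferInstance hPne
  -- `e(Q/ℓ) = #I = e(Q/P)`
  have hcard : Nat.card (Q.inertia Gal(N/F)) = Nat.card I := by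
    refine Nat.card_congr
      { toFun := fun g => ⟨g.1.restrictScalars ℚ, fun x => g.2 x⟩
        invFun := fun g => ⟨(IntermediateField.fixingSubgroupEquiv F
          ⟨g.1, fun x => ((IntermediateField.mem_fixedField_iff I _).mp x.2 g.1 g.2)⟩),
          fun x => g.2 x⟩
        left_inv := fun g => Subtype.ext (AlgEquiv.ext fun x => rfl)
        right_inv := fun g => Subtype.ext (AlgEquiv.ext fun x => rfl) }
  have htower := Ideal.ramificationIdx_tower (R := ℤ) (q := P) (r := Q)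
  have e1 : Nat.card I = Q.ramificationIdx ℤ := by
    rw [← Ideal.ramificationIdxIn_eq_ramificationIdx (Ideal.span {(ℓ : ℤ)}) Q Gal(N/ℚ)]
    have : Q.LiesOver (Q.under ℤ) := ⟨rfl⟩
    rw [show Ideal.span {(ℓ : ℤ)} = Q.under ℤ from Ideal.LiesOver.over (p := Ideal.span {(ℓ : ℤ)})]
    exact Ideal.card_inertia_eq_ramificationIdxIn (G := Gal(N/ℚ)) (Q.under ℤ) Q
  have e2 : Nat.card I = Q.ramificationIdx (𝓞 F) := by
    rw [← hcard, ← Ideal.ramificationIdxIn_eq_ramificationIdx P Q Gal(N/F)]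
    have : Finite (𝓞 F ⧸ P) := Ideal.finiteQuotientOfFreeOfNeBot P hPne
    exact Ideal.card_inertia_eq_ramificationIdxIn (G := Gal(N/F)) P Q
  have heP : P.ramificationIdx ℤ = 1 := by
    have hpos : 0 < Nat.card I := Nat.card_pos
    rw [← e1, ← e2] at htower
    exact Nat.eq_of_mul_eq_mul_right hpos (by rw [← htower, one_mul])
  have hne0 : (Ideal.span {(ℓ : ℤ)}) ≠ ⊥ := by simpa using hℓ.ne_zero
  have hmap : (Ideal.span {(ℓ : ℤ)}).map (algebraMap ℤ (𝓞 F)) = Ideal.span {(ℓ : 𝓞 F)} := by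
    rw [Ideal.map_span, Set.image_singleton, map_natCast]
  have hsq : ¬ Ideal.span {(ℓ : 𝓞 F)} ≤ P ^ 2 := by
    intro hle
    have hne : (Ideal.span {(ℓ : ℤ)}).ramificationIdx' P ≠ 1 :=
      (Ideal.ramificationIdx'_ne_one_iff (by
        rw [hmap, Ideal.span_singleton_le_iff_mem]; exact hℓP)).2 (hmap ▸ hle)
    rw [Ideal.ramificationIdx'_eq_ramificationIdx (Ideal.span {(ℓ : ℤ)}) P hne0, heP] at hne
    exact hne rfl
  obtain ⟨J, hJ⟩ : P ∣ Ideal.span {(ℓ : 𝓞 F)} :=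
    Ideal.dvd_iff_le.mpr ((Ideal.span_singleton_le_iff_mem _).mpr hℓP)
  obtain ⟨b, hbJ, hbP⟩ : ∃ b ∈ J, b ∉ P := by
    by_contra hne
    push Not at hne
    exact hsq (by rw [hJ, pow_two]; exact Ideal.mul_mono_right hne)
  -- the element
  have hβint : IsIntegral ℤ (⟨⟨β, hβN⟩, hβF⟩ : F) :=
    (isIntegral_algHom_iff (IsScalarTower.toAlgHom ℤ F N) (algebraMap F N).injective).mp
      ((isIntegral_algHom_iff (IsScalarTower.toAlgHom ℤ N Qbar)
        (algebraMap N Qbar).injective).mp hint)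
  set a : 𝓞 F := ⟨⟨⟨β, hβN⟩, hβF⟩, hβint⟩ with hadef
  have ha0 : a ≠ 0 := fun h => h0 (congrArg (fun z : 𝓞 F => (((z : F) : N) : Qbar)) h)
  obtain ⟨n, hn⟩ : ∃ n, a ∉ P ^ n := by
    by_contra hne
    push Not at hne
    have : a ∈ ⨅ i : ℕ, P ^ i := Submodule.mem_iInf _ |>.mpr hne
    rw [Ideal.iInf_pow_eq_bot_of_isDomain _ (inferInstance : P.IsPrime).ne_top] at this
    exact ha0 (by simpa using this)
  obtain ⟨m, ham, ham'⟩ : ∃ m, a ∈ P ^ m ∧ a ∉ P ^ (m + 1) := by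
    induction n with
    | zero => exact absurd (by simp) hn
    | succ k ih =>
      by_cases hk : a ∈ P ^ k
      · exact ⟨k, hk, hn⟩
      · exact ih hk
  have hab : a * b ^ m ∈ Ideal.span {(ℓ : 𝓞 F) ^ m} := by
    rw [← Ideal.span_singleton_pow, hJ, mul_pow]
    exact Ideal.mul_mem_mul ham (Ideal.pow_mem_pow hbJ m)
  obtain ⟨c, hc⟩ := Ideal.mem_span_singleton.mp hab
  have hcP : c ∉ P := by
    intro hcP
    have h1 : a * b ^ m ∈ P ^ (m + 1) := by
      rw [hc, pow_succ]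
      exact Ideal.mul_mem_mul (Ideal.pow_mem_pow hℓP m) hcP
    rw [mul_comm] at h1
    rcases (inferInstance : P.IsPrime).mul_mem_pow P h1 with h | h
    · exact hbP ((inferInstance : P.IsPrime).mem_of_pow_mem m h)
    · exact ham' h
  have hunit : ∀ z : 𝓞 F, z ∉ P → IsUnitAt A (((z : F) : N) : Qbar) := by
    intro z hz
    refine IsUnitAt.iff_mem.mpr ⟨Gal.mem_of_isIntegral ?_, fun hnu => hz ?_⟩
    · exact z.2.map ((IsScalarTower.toAlgHom ℤ N Qbar).comp (IsScalarTower.toAlgHom ℤ F N))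
    · rw [hPdef, Ideal.under, Ideal.mem_comap]
      exact Gal.mem_placePrime.mpr hnu
  refine ⟨m, ?_⟩
  have hb' := (hunit b hbP).pow m
  have heq : β * ((((b : F) : N) : Qbar) ^ m) = (ℓ : Qbar) ^ m * (((c : F) : N) : Qbar) := by
    let ι : 𝓞 F →+* Qbar :=
      (algebraMap N Qbar).comp ((algebraMap F N).comp (algebraMap (𝓞 F) F))
    have h := congrArg ι hc
    rw [map_mul, map_mul, map_pow, map_pow, map_natCast] at h
    exact h
  have hℓ0 : (ℓ : Qbar) ≠ 0 := by exact_mod_cast hℓ.ne_zero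
  rw [show β / (ℓ : Qbar) ^ m = (((c : F) : N) : Qbar) / ((((b : F) : N) : Qbar) ^ m) by
    rw [div_eq_div_iff (pow_ne_zero _ hℓ0) hb'.ne_zero, heq]; ring]
  exact (hunit c hcP).div hb'

/-- An element fixed by inertia has valuation in the group generated by the valuation of `ℓ`. -/
theorem exists_unit_mul_zpow (hℓ : ℓ.Prime) (hA : A.LiesOverPrime ℓ) {β : Qbar} (h0 : β ≠ 0)
    (hfix : ∀ σ ∈ A.inertiaSubgroupIn ℚ, σ β = β) :
    ∃ j : ℤ, IsUnitAt A (β / (ℓ : Qbar) ^ j) := by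
  have halg : IsAlgebraic ℤ β :=
    (IsFractionRing.isAlgebraic_iff ℤ ℚ Qbar).mpr (Algebra.IsAlgebraic.isAlgebraic β)
  obtain ⟨m, hm, hy⟩ := halg.exists_integral_multiple
  have hm0 : (m : Qbar) ≠ 0 := by exact_mod_cast hm
  rw [zsmul_eq_mul] at hy
  obtain ⟨n₁, h₁⟩ := exists_unit_mul_zpow_of_integral hℓ hA hy (mul_ne_zero hm0 h0)
    fun σ hσ => by rw [map_mul, map_intCast, hfix σ hσ]
  obtain ⟨n₂, h₂⟩ := exists_unit_mul_zpow_of_integral (β := (m : Qbar)) hℓ hA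
    (eq_intCast (algebraMap ℤ Qbar) m ▸ isIntegral_algebraMap) hm0 fun σ _ => map_intCast σ m
  refine ⟨(n₁ : ℤ) - n₂, ?_⟩
  have hℓ0 : (ℓ : Qbar) ≠ 0 := by exact_mod_cast hℓ.ne_zero
  have := h₁.div h₂
  rwa [show (m : Qbar) * β / (ℓ : Qbar) ^ n₁ / ((m : Qbar) / (ℓ : Qbar) ^ n₂) =
    β / (ℓ : Qbar) ^ ((n₁ : ℤ) - n₂) by
      rw [zpow_sub₀ hℓ0, zpow_natCast, zpow_natCast]; field_simp] at this

/-- `ℓ` is not a unit. -/
theorem not_isUnitAt_zpow (hℓ : ℓ.Prime) (hA : A.LiesOverPrime ℓ) {j : ℤ}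
    (h : IsUnitAt A ((ℓ : Qbar) ^ j)) : j = 0 := by
  have hlt : A.valuation (ℓ : Qbar) < 1 := hA
  have hpos : (0 : A.ValueGroup) < A.valuation (ℓ : Qbar) :=
    zero_lt_iff.mpr (A.valuation.ne_zero_iff.mpr (by exact_mod_cast hℓ.ne_zero))
  rw [IsUnitAt, map_zpow₀] at h
  exact (zpow_eq_one_iff_right₀ hpos.le hlt.ne).mp h

end Fermat.Agent.Mazur
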