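import Fermat.Agent.Mazur.Descent.Kummer

/-!
# A stable line with character `1` or `ω`
-/

noncomputable section

namespace Fermat.Agent.Mazur.Descent

local notation "Qbar" => AlgebraicClosure ℚ
local notation "Γℚ" => AlgebraicClosure ℚ ≃ₐ[ℚ] AlgebraicClosure ℚ

variable {P : ℕ} [Fact P.Prime] {ν : Γℚ → ℕ}

/-- The exponents `ν` describe the action on the `P`-th roots of unity. -/
def IsCycloExp (ν : Γℚ → ℕ) : Prop := ∀ σ : Γℚ, σ (zeta P 1) = zeta P 1 ^ ν σ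

theorem zeta_one_orderOf : orderOf (zeta P 1) = P := by
  rw [← (zeta_prim P 1).eq_orderOf, pow_one]

theorem natCast_eq_of_zeta_pow_eq {a b : ℕ} (h : zeta P 1 ^ a = zeta P 1 ^ b) :
    (a : ZMod P) = b := by
  have hinv : IsOfFinOrder (zeta P 1) := orderOf_pos_iff.mp
    (by rw [zeta_one_orderOf]; exact (Fact.out : P.Prime).pos)
  have h1 := hinv.pow_eq_pow_iff_modEq.mp h
  rw [zeta_one_orderOf] at h1
  exact (ZMod.natCast_eq_natCast_iff _ _ _).mpr h1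

theorem nsmul_eq_of_natCast_eq {M : Type} [AddCommGroup M] {x : M} (hx : P • x = 0) {a b : ℕ}
    (h : (a : ZMod P) = b) : a • x = b • x := by
  have h1 := (ZMod.natCast_eq_natCast_iff _ _ _).mp h
  rw [← Nat.div_add_mod a P, ← Nat.div_add_mod b P, add_nsmul, add_nsmul, mul_comm P, mul_comm P,
    mul_nsmul', mul_nsmul', hx, h1]
  simp

namespace IsCycloExp

variable (hν : IsCycloExp (P := P) ν)

include hν in
theorem cast_mul (σ τ : Γℚ) : (ν (σ * τ) : ZMod P) = ν σ * ν τ := by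
  rw [← Nat.cast_mul]
  refine natCast_eq_of_zeta_pow_eq ?_
  rw [← hν, AlgEquiv.mul_apply, hν τ, map_pow, hν σ, ← pow_mul]

include hν in
theorem cast_one : (ν 1 : ZMod P) = 1 := by
  rw [← Nat.cast_one]
  exact natCast_eq_of_zeta_pow_eq (by rw [← hν, pow_one]; rfl)

/-- The mod `P` cyclotomic character attached to `ν`. -/
def hom (hν : IsCycloExp (P := P) ν) : Γℚ →* (ZMod P)ˣ :=
  MonoidHom.toHomUnits
    { toFun := fun σ => (ν σ : ZMod P), map_one' := hν.cast_one, map_mul' := hν.cast_mul }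

theorem val_hom (σ : Γℚ) : (hν.hom σ : ZMod P) = ν σ := rfl

end IsCycloExp

/-- If `(ρ σ - 1)(ρ σ - ν σ)` is nilpotent and `ν σ ≡ 1` mod `P`, a `P`-power of `σ` fixes the
`P`-torsion. -/
theorem exists_pow_apply_eq_self {M : Type} [AddCommGroup M] (ρ : Γℚ →* AddMonoid.End M)
    {σ : Γℚ} {K : ℕ} (hK : ((ρ σ - 1) * (ρ σ - (ν σ : AddMonoid.End M))) ^ K = 0)
    (hν1 : (ν σ : ZMod P) = ((1 : ℕ) : ZMod P)) :
    ∃ n : ℕ, ∀ x : M, P • x = 0 → ρ (σ ^ P ^ n) x = x := by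
  have hp : P.Prime := Fact.out
  refine ⟨2 * K, fun x hx => ?_⟩
  have hmem : ∀ (g : AddMonoid.End M) (z : M), P • z = 0 → P • g z = 0 := fun g z hz => by
    rw [← map_nsmul, hz, map_zero]
  have key : ∀ (i : ℕ) (z : M), P • z = 0 →
      (((ρ σ - 1) * (ρ σ - (ν σ : AddMonoid.End M))) ^ i) z = ((ρ σ - 1) ^ (2 * i)) z := by
    intro i
    induction i with
    | zero => exact fun z _ => rfl
    | succ i ih =>
      intro z hz
      rw [pow_succ, show 2 * (i + 1) = 2 * i + 2 by ring, pow_add, pow_two]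
      change (((ρ σ - 1) * (ρ σ - (ν σ : AddMonoid.End M))) ^ i)
          ((ρ σ - 1) ((ρ σ - (ν σ : AddMonoid.End M)) z)) =
        ((ρ σ - 1) ^ (2 * i)) ((ρ σ - 1) ((ρ σ - 1) z))
      have e : (ρ σ - (ν σ : AddMonoid.End M)) z = (ρ σ - 1) z := by
        change ρ σ z - ν σ • z = ρ σ z - z
        rw [nsmul_eq_of_natCast_eq hz hν1, one_smul]
      rw [e]
      exact ih _ (hmem _ _ (hmem _ z hz))
  obtain ⟨r, hr⟩ := Commute.exists_add_pow_prime_pow_eq (x := ρ σ - 1) (y := 1) hp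
    (Commute.one_right _) (2 * K)
  rw [sub_add_cancel, one_pow] at hr
  rw [map_pow, hr]
  have h2 : ((ρ σ - 1) ^ P ^ (2 * K)) x = 0 := by
    rw [← Nat.add_sub_cancel' (Nat.lt_pow_self (n := 2 * K) hp.one_lt).le, add_comm, pow_add]
    change ((ρ σ - 1) ^ (P ^ (2 * K) - 2 * K)) (((ρ σ - 1) ^ (2 * K)) x) = 0
    rw [← key K x hx, hK]
    exact map_zero _
  have h3 : ((P : AddMonoid.End M) * (ρ σ - 1) * 1 * r) x = 0 := by
    rw [mul_one, mul_assoc]
    change P • (((ρ σ - 1) * r) x) = 0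
    rw [← map_nsmul, show P • x = 0 from hx, map_zero]
  change ((ρ σ - 1) ^ P ^ (2 * K)) x + x + ((P : AddMonoid.End M) * (ρ σ - 1) * 1 * r) x = x
  rw [h2, h3, zero_add, add_zero]

/-- A nonzero finite `P`-group with residual characters in `{1, ω}` has a stable line on which
the action is trivial or cyclotomic. -/
theorem exists_line {M : Type} [AddCommGroup M] [Finite M] (hν : IsCycloExp (P := P) ν)
    (ρ : Γℚ →* AddMonoid.End M) (hP : ∀ x : M, ∃ k, P ^ k • x = 0)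
    (hres : ∀ σ, ∃ K : ℕ, ((ρ σ - 1) * (ρ σ - (ν σ : AddMonoid.End M))) ^ K = 0)
    (hM : ∃ x : M, x ≠ 0) :
    ∃ x : M, x ≠ 0 ∧ P • x = 0 ∧ ((∀ σ, ρ σ x = x) ∨ ∀ σ, ρ σ x = ν σ • x) := by
  classical
  have hp : P.Prime := Fact.out
  let V : AddSubgroup M :=
    { carrier := {x | P • x = 0}
      zero_mem' := smul_zero _
      add_mem' := fun {a b} (ha : P • a = 0) (hb : P • b = 0) => by
        show P • (a + b) = 0
        rw [smul_add, ha, hb, add_zero]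
      neg_mem' := fun {a} (ha : P • a = 0) => by
        show P • (-a) = 0
        rw [smul_neg, ha, neg_zero] }
  obtain ⟨v, hv, hvV⟩ : ∃ v : M, v ≠ 0 ∧ v ∈ V := by
    obtain ⟨x, hx⟩ := hM
    have hex := hP x
    have h1 := Nat.find_spec hex
    obtain ⟨k, hk⟩ : ∃ k, Nat.find hex = k + 1 := Nat.exists_eq_succ_of_ne_zero fun h0 => hx <| by
      rwa [h0, pow_zero, one_smul] at h1
    refine ⟨P ^ k • x, Nat.find_min hex (by omega), ?_⟩
    show P • P ^ k • x = 0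
    rwa [smul_smul, ← pow_succ', ← hk]
  -- the kernel of `ω` acts through a `P`-group
  let H : Subgroup Γℚ := hν.hom.ker
  have hH : ∀ σ ∈ H, (ν σ : ZMod P) = ((1 : ℕ) : ZMod P) := fun σ hσ => by
    rw [← hν.val_hom, MonoidHom.mem_ker.mp hσ, Units.val_one, Nat.cast_one]
  have hunip : ∀ σ ∈ H, ∃ n : ℕ, ∀ x ∈ V, ρ (σ ^ P ^ n) x = x := fun σ hσ =>
    let ⟨_, hK⟩ := hres σ
    exists_pow_apply_eq_self ρ hK (hH σ hσ)
  have hstab : ∀ (σ : Γℚ), ∀ x ∈ V, ρ σ x ∈ V := fun σ x hx => by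
    show P • ρ σ x = 0
    rw [← map_nsmul, show P • x = 0 from hx, map_zero]
  let act : H →* Equiv.Perm V :=
    MonoidHom.mk' (fun σ =>
      { toFun := fun x => ⟨ρ σ x, hstab σ x x.2⟩
        invFun := fun x => ⟨ρ (σ : Γℚ)⁻¹ x, hstab _ x x.2⟩
        left_inv := fun x => Subtype.ext (by
          show (ρ (σ : Γℚ)⁻¹ * ρ σ) (x : M) = x
          rw [← map_mul, inv_mul_cancel, map_one]; rfl)
        right_inv := fun x => Subtype.ext (by
          show (ρ σ * ρ (σ : Γℚ)⁻¹) (x : M) = x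
          rw [← map_mul, mul_inv_cancel, map_one]; rfl) })
      fun σ τ => Equiv.ext fun x => Subtype.ext (by
        show ρ ((σ : Γℚ) * τ) (x : M) = ρ σ (ρ τ x)
        rw [map_mul]; rfl)
  have hG : IsPGroup P act.range := by
    rintro ⟨_, σ, rfl⟩
    obtain ⟨n, hn⟩ := hunip σ σ.2
    refine ⟨n, Subtype.ext (Equiv.ext fun x => Subtype.ext ?_)⟩
    rw [SubgroupClass.coe_pow, ← map_pow]
    exact hn x x.2
  obtain ⟨w₀, hw₀, hw₀ne⟩ := hG.exists_fixed_point_of_prime_dvd_card_of_fixed_point (α := V) (by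
      have h2 : addOrderOf (⟨v, hvV⟩ : V) = P :=
        addOrderOf_eq_prime (Subtype.ext hvV) fun h => hv (congrArg Subtype.val h)
      exact h2 ▸ addOrderOf_dvd_natCard _)
    (a := (0 : V)) (by rintro ⟨_, σ, rfl⟩; exact Subtype.ext (map_zero (ρ σ)))
  let InW : M → Prop := fun x => x ∈ V ∧ ∀ σ ∈ H, ρ σ x = x
  have hWstab : ∀ (σ : Γℚ) (x : M), InW x → InW (ρ σ x) :=
      fun σ x hx => ⟨hstab σ x hx.1, fun h hh => by
    show (ρ h * ρ σ) x = ρ σ x
    rw [← map_mul, show h * σ = σ * (σ⁻¹ * h * σ) by group, map_mul]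
    show ρ σ (ρ (σ⁻¹ * h * σ) x) = ρ σ x
    rw [hx.2 _ (by
      have hc := (inferInstance : hν.hom.ker.Normal).conj_mem h hh σ⁻¹
      rwa [inv_inv] at hc)]⟩
  have hw : InW (w₀ : M) := ⟨w₀.2, fun σ hσ =>
    congrArg Subtype.val (hw₀ ⟨act ⟨σ, hσ⟩, ⟨σ, hσ⟩, rfl⟩)⟩
  have hwne : (w₀ : M) ≠ 0 := fun h => hw₀ne (Subtype.ext h.symm)
  -- a generator of the image of `ω`
  obtain ⟨⟨_, g, rfl⟩, hg⟩ := IsCyclic.exists_monoid_generator (α := hν.hom.range)
  obtain ⟨K, hK⟩ := hres g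
  set B := (ρ g - 1) * (ρ g - (ν g : AddMonoid.End M)) with hB
  have hBW : ∀ x, InW x → InW ((ρ g - (ν g : AddMonoid.End M)) x) := fun x hx => by
    refine ⟨?_, fun σ hσ => ?_⟩
    · show P • (ρ g - (ν g : AddMonoid.End M)) x = 0
      rw [← map_nsmul, show P • x = 0 from hx.1, map_zero]
    · change ρ σ (ρ g x - ν g • x) = ρ g x - ν g • x
      rw [map_sub, map_nsmul, (hWstab g x hx).2 σ hσ, hx.2 σ hσ]
  have hBW' : ∀ x, InW x → InW (B x) := fun x hx => by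
    obtain ⟨hy, hy'⟩ := hBW x hx
    have h2 := hWstab g _ ⟨hy, hy'⟩
    refine ⟨V.sub_mem h2.1 hy, fun σ hσ => ?_⟩
    change ρ σ (ρ g ((ρ g - (ν g : AddMonoid.End M)) x) - (ρ g - (ν g : AddMonoid.End M)) x) =
      ρ g ((ρ g - (ν g : AddMonoid.End M)) x) - (ρ g - (ν g : AddMonoid.End M)) x
    rw [map_sub, h2.2 σ hσ, hy' σ hσ]
  obtain ⟨u, hu, hune, hBu⟩ : ∃ u, InW u ∧ u ≠ 0 ∧ B u = 0 := by
    have hKw : (B ^ K) (w₀ : M) = 0 := by rw [hK]; rfl
    have : ∀ (i : ℕ) (x : M), InW x → x ≠ 0 → (B ^ i) x = 0 → ∃ u, InW u ∧ u ≠ 0 ∧ B u = 0 := by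
      intro i
      induction i with
      | zero => exact fun x _ hx h => (hx h).elim
      | succ i ih =>
        intro x hx hx0 h
        by_cases hB0 : B x = 0
        · exact ⟨x, hx, hx0, hB0⟩
        · rw [pow_succ] at h
          exact ih (B x) (hBW' x hx) hB0 h
    exact this K _ hw hwne hKw
  -- an eigenvector of `g`
  obtain ⟨z, hz, hz0, b, hgz, hb⟩ : ∃ z, InW z ∧ z ≠ 0 ∧ ∃ b : ℕ, ρ g z = b • z ∧
      (b = 1 ∨ b = ν g) := by
    by_cases h : (ρ g - (ν g : AddMonoid.End M)) u = 0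
    · exact ⟨u, hu, hune, ν g, sub_eq_zero.mp h, Or.inr rfl⟩
    · exact ⟨_, hBW u hu, h, 1, by rw [one_smul]; exact sub_eq_zero.mp hBu, Or.inl rfl⟩
  have hpow : ∀ σ : Γℚ, ∃ i : ℕ, ρ σ z = b ^ i • z ∧ (ν σ : ZMod P) = (ν g : ZMod P) ^ i := by
    intro σ
    obtain ⟨i, hi : (⟨hν.hom g, g, rfl⟩ : hν.hom.range) ^ i = ⟨hν.hom σ, σ, rfl⟩⟩ :=
      Submonoid.mem_powers_iff _ _ |>.mp (hg ⟨hν.hom σ, σ, rfl⟩)
    have hi' : hν.hom (g ^ i) = hν.hom σ := by rw [map_pow]; exact congrArg Subtype.val hi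
    have hgi : ∀ i : ℕ, ρ (g ^ i) z = b ^ i • z := by
      intro i
      induction i with
      | zero => rw [pow_zero, pow_zero, map_one, one_smul]; rfl
      | succ i ih =>
        rw [pow_succ', map_mul, pow_succ]
        show ρ g (ρ (g ^ i) z) = _
        rw [ih, map_nsmul, hgz, smul_smul]
    refine ⟨i, ?_, ?_⟩
    · rw [← hgi, ← mul_inv_cancel_left (g ^ i) σ, map_mul]
      show ρ (g ^ i) (ρ ((g ^ i)⁻¹ * σ) z) = _
      rw [hz.2 _ (MonoidHom.mem_ker.mpr (by rw [map_mul, map_inv, hi', inv_mul_cancel]))]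
    · rw [← hν.val_hom, ← hi', map_pow, Units.val_pow_eq_pow_val, hν.val_hom]
  refine ⟨z, hz0, hz.1, ?_⟩
  rcases hb with rfl | rfl
  · exact Or.inl fun σ => by
      obtain ⟨i, h, -⟩ := hpow σ
      rw [h, one_pow, one_smul]
  · exact Or.inr fun σ => by
      obtain ⟨i, h, h'⟩ := hpow σ
      rw [h]
      exact nsmul_eq_of_natCast_eq hz.1 (by rw [Nat.cast_pow, h'])

end Fermat.Agent.Mazur.Descent
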