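import Fermat.Agent.Mazur.Descent.Kummer
import Fermat.Agent.Mazur.Descent.Unramified

/-!
# The valuation of a twisted homomorphism on inertia at `P`

A crossed homomorphism `a : I → ℤ_P(1)` is the Kummer class of some `(α_k)`; the valuations of the
`α_k ^ (P ^ k)` give `v ∈ ℤ_P`. It vanishes iff the class comes from units.
-/

noncomputable section

open scoped Pointwise

namespace Fermat.Agent.Mazur.Descent

local notation "Qbar" => AlgebraicClosure ℚ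
local notation "Γℚ" => AlgebraicClosure ℚ ≃ₐ[ℚ] AlgebraicClosure ℚ

variable {P : ℕ} [Fact P.Prime] (A : ValuationSubring Qbar)

/-- Crossed homomorphisms from inertia to `ℤ_P(1)`, continuous. -/
structure IsTwisted (a : Γℚ → ℤ_[P]) : Prop where
  mul : ∀ σ ∈ A.inertiaSubgroupIn ℚ, ∀ τ ∈ A.inertiaSubgroupIn ℚ,
    a (σ * τ) = a σ + (chi P σ : ℤ_[P]) * a τ
  cont : ∀ k : ℕ, ∃ E : IntermediateField ℚ Qbar, FiniteDimensional ℚ E ∧
    ∀ σ ∈ A.inertiaSubgroupIn ℚ, (∀ x ∈ E, σ x = x) → a σ ∈ Ideal.span {(P : ℤ_[P]) ^ k}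

/-- The valuation of the `k`-th Kummer element of `a` is `j`. -/
def ValAt (a : Γℚ → ℤ_[P]) (k : ℕ) (j : ℤ) : Prop :=
  ∃ α : Qbar, IsUnitAt A (α ^ P ^ k / (P : Qbar) ^ j) ∧
    ∀ σ ∈ A.inertiaSubgroupIn ℚ, σ α = epow k (a σ) * α

/-- `v` is the valuation of `a`. -/
def IsVal (a : Γℚ → ℤ_[P]) (v : ℤ_[P]) : Prop :=
  ∀ k : ℕ, ∃ j : ℤ, ValAt A a k j ∧ v - j ∈ Ideal.span {(P : ℤ_[P]) ^ k}

theorem intCast_mem_span_iff (k : ℕ) (j : ℤ) :
    (j : ℤ_[P]) ∈ Ideal.span {(P : ℤ_[P]) ^ k} ↔ (P : ℤ) ^ k ∣ j := by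
  rw [← PadicInt.norm_le_pow_iff_mem_span_pow, PadicInt.norm_int_le_pow_iff_dvd]

theorem qbarP_ne_zero : (P : Qbar) ≠ 0 := by exact_mod_cast (Fact.out : P.Prime).ne_zero

variable {A}

theorem ne_zero_of_valAt_unit {α : Qbar} {k : ℕ} {j : ℤ}
    (h : IsUnitAt A (α ^ P ^ k / (P : Qbar) ^ j)) : α ≠ 0 := by
  rintro rfl
  exact h.ne_zero (by rw [zero_pow (pow_ne_zero k (Fact.out : P.Prime).ne_zero), zero_div])

variable (hA : A.LiesOverPrime P) {a b : Γℚ → ℤ_[P]}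

include hA in
theorem valAt_exists (ha : IsTwisted A a) (k : ℕ) : ∃ j, ValAt A a k j := by
  obtain ⟨E, hE, hcont⟩ := ha.cont k
  obtain ⟨α, hα0, hα⟩ := exists_kummer (A.inertiaSubgroupIn ℚ) (fun σ => epow k (a σ))
    (fun σ _ => epow_ne_zero k _)
    (fun σ hσ τ hτ => by rw [ha.mul σ hσ τ hτ, epow_add, smul_epow])
    ⟨E, hE, fun σ hσ hfix => (epow_eq_one_iff k _).mpr (hcont σ hσ hfix)⟩
  obtain ⟨j, hj⟩ := exists_unit_mul_zpow Fact.out hA (pow_ne_zero (P ^ k) hα0) fun σ hσ => by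
    rw [map_pow, hα σ hσ, mul_pow, epow_pow_pow, one_mul]
  exact ⟨j, α, hj, hα⟩

include hA in
theorem valAt_unique {k : ℕ} {j j' : ℤ} (h : ValAt A a k j) (h' : ValAt A a k j') :
    (P : ℤ) ^ k ∣ j' - j := by
  obtain ⟨α, hu, hα⟩ := h
  obtain ⟨α', hu', hα'⟩ := h'
  have h0 := ne_zero_of_valAt_unit hu
  have h0' := ne_zero_of_valAt_unit hu'
  obtain ⟨i, hi⟩ := exists_unit_mul_zpow Fact.out hA (div_ne_zero h0' h0) fun σ hσ => by
    rw [map_div₀, hα σ hσ, hα' σ hσ, mul_div_mul_left _ _ (epow_ne_zero k _)]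
  have h2 := (hu'.div hu).div (hi.pow (P ^ k))
  have hP0 := qbarP_ne_zero (P := P)
  have e : α' ^ P ^ k / (P : Qbar) ^ j' / (α ^ P ^ k / (P : Qbar) ^ j) /
      (α' / α / (P : Qbar) ^ i) ^ P ^ k = (P : Qbar) ^ (i * (P : ℤ) ^ k - (j' - j)) := by
    have hpow : ((P : Qbar) ^ i) ^ P ^ k = (P : Qbar) ^ (i * (P : ℤ) ^ k) := by
      rw [← zpow_natCast, ← zpow_mul]; norm_cast
    rw [div_pow, div_pow, hpow, zpow_sub₀ hP0, zpow_sub₀ hP0]
    field_simp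
  rw [e] at h2
  exact ⟨i, by linear_combination -(not_isUnitAt_zpow Fact.out hA h2)⟩

theorem valAt_succ {k : ℕ} {j : ℤ} (h : ValAt A a (k + 1) j) : ValAt A a k j := by
  obtain ⟨α, hu, hα⟩ := h
  refine ⟨α ^ P, ?_, fun σ hσ => ?_⟩
  · rwa [← pow_mul, ← pow_succ']
  · rw [map_pow, hα σ hσ, mul_pow, epow_succ_pow]

include hA in
theorem exists_isVal (ha : IsTwisted A a) : ∃ v, IsVal A a v := by
  choose j hj using valAt_exists hA ha
  have hle : ∀ d k, ValAt A a k (j (k + d)) := by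
    intro d
    induction d with
    | zero => exact hj
    | succ d ih =>
      intro k
      rw [show k + (d + 1) = k + 1 + d by omega]
      exact valAt_succ (ih (k + 1))
  obtain ⟨v, φ, hφ, hlim⟩ := CompactSpace.tendsto_subseq fun n => (j n : ℤ_[P])
  refine ⟨v, fun k => ⟨j k, hj k, ?_⟩⟩
  have hmem : ∀ n, k ≤ n → (j n : ℤ_[P]) - (j k : ℤ_[P]) ∈ Ideal.span {(P : ℤ_[P]) ^ k} :=
    fun n hn => by
      rw [← Int.cast_sub, intCast_mem_span_iff]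
      exact valAt_unique hA (hj k) (Nat.add_sub_cancel' hn ▸ hle (n - k) k)
  rw [← PadicInt.norm_le_pow_iff_mem_span_pow]
  refine le_of_tendsto ((hlim.sub_const _).norm) ?_
  filter_upwards [Filter.eventually_ge_atTop k] with n hn
  exact (PadicInt.norm_le_pow_iff_mem_span_pow _ k).mpr (hmem _ (hn.trans (hφ.id_le n)))

theorem eq_zero_of_forall_mem {x : ℤ_[P]} (h : ∀ k : ℕ, x ∈ Ideal.span {(P : ℤ_[P]) ^ k}) :
    x = 0 :=
  PadicInt.ext_of_toZModPow.mp fun k => by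
    rw [map_zero, ← RingHom.mem_ker, PadicInt.ker_toZModPow]; exact h k

include hA in
theorem IsVal.unique {v w : ℤ_[P]} (hv : IsVal A a v) (hw : IsVal A a w) : v = w := by
  refine sub_eq_zero.mp (eq_zero_of_forall_mem fun k => ?_)
  obtain ⟨j, hj, hjv⟩ := hv k
  obtain ⟨i, hi, hiw⟩ := hw k
  have h := (intCast_mem_span_iff k _).mpr (valAt_unique hA hj hi)
  rw [show v - w = (v - j) - (w - i) - ((i - j : ℤ) : ℤ_[P]) by push_cast; ring]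
  exact Ideal.sub_mem _ (Ideal.sub_mem _ hjv hiw) h

theorem IsVal.congr {v : ℤ_[P]} (hv : IsVal A a v)
    (h : ∀ σ ∈ A.inertiaSubgroupIn ℚ, a σ = b σ) : IsVal A b v := fun k => by
  obtain ⟨j, ⟨α, hu, hα⟩, hjv⟩ := hv k
  exact ⟨j, ⟨α, hu, fun σ hσ => h σ hσ ▸ hα σ hσ⟩, hjv⟩

theorem isVal_zero : IsVal A (0 : Γℚ → ℤ_[P]) 0 := fun k =>
  ⟨0, ⟨1, by rw [one_pow, zpow_zero, div_one]; exact IsUnitAt.one, fun σ _ => by simp⟩, by simp⟩

theorem IsVal.add {v w : ℤ_[P]} (hv : IsVal A a v) (hw : IsVal A b w) :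
    IsVal A (a + b) (v + w) := fun k => by
  obtain ⟨j, ⟨α, hu, hα⟩, hjv⟩ := hv k
  obtain ⟨i, ⟨β, hu', hβ⟩, hiw⟩ := hw k
  refine ⟨j + i, ⟨α * β, ?_, fun σ hσ => ?_⟩, ?_⟩
  · convert hu.mul hu' using 1
    rw [mul_pow, zpow_add₀ qbarP_ne_zero, mul_div_mul_comm]
  · rw [map_mul, hα σ hσ, hβ σ hσ, Pi.add_apply, epow_add]; ring
  · rw [show v + w - ((j + i : ℤ) : ℤ_[P]) = (v - j) + (w - i) by push_cast; ring]
    exact Ideal.add_mem _ hjv hiw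

theorem sub_toZModPow_mem (k : ℕ) (r : ℤ_[P]) :
    r - ((PadicInt.toZModPow k r).val : ℤ_[P]) ∈ Ideal.span {(P : ℤ_[P]) ^ k} := by
  rw [← PadicInt.ker_toZModPow, RingHom.mem_ker]
  simp

theorem IsVal.smul {v : ℤ_[P]} (hv : IsVal A a v) (r : ℤ_[P]) :
    IsVal A (fun σ => r * a σ) (r * v) := fun k => by
  obtain ⟨j, ⟨α, hu, hα⟩, hjv⟩ := hv k
  set n := (PadicInt.toZModPow k r).val with hn
  refine ⟨j * n, ⟨α ^ n, ?_, fun σ hσ => ?_⟩, ?_⟩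
  · convert hu.pow n using 1
    rw [div_pow, ← pow_mul, ← pow_mul, mul_comm n, zpow_mul, zpow_natCast]
  · rw [map_pow, hα σ hσ, mul_pow, epow_mul]
  · have h1 : (r - (n : ℤ_[P])) * v ∈ Ideal.span {(P : ℤ_[P]) ^ k} :=
      Ideal.mul_mem_right _ _ (sub_toZModPow_mem k r)
    rw [show r * v - ((j * (n : ℤ) : ℤ) : ℤ_[P]) = (r - n) * v + (n : ℤ_[P]) * (v - j) by
      push_cast; ring]
    exact Ideal.add_mem _ h1 (Ideal.mul_mem_left _ _ hjv)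

theorem isUnitAt_of_pow {x : Qbar} {n : ℕ} (hn : n ≠ 0) (h : IsUnitAt A (x ^ n)) :
    IsUnitAt A x := by
  rw [IsUnitAt, map_pow] at h
  exact (pow_eq_one_iff_left hn).mp h

theorem map_mem_of_decomposition {φ : Γℚ} (hφ : φ ∈ A.decompositionSubgroup ℚ) {x : Qbar}
    (h : IsUnitAt A x) : IsUnitAt A (φ x) := by
  rw [IsUnitAt.iff_mem] at h ⊢
  exact ⟨(Gal.mem_decomposition_iff.mp hφ x).mpr h.1,
    fun h' => h.2 ((Gal.decomposition_mem_nonunits_iff hφ).mp h')⟩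

theorem conj_mem_inertia_self {φ σ : Γℚ} (hφ : φ ∈ A.decompositionSubgroup ℚ)
    (hσ : σ ∈ A.inertiaSubgroupIn ℚ) : φ⁻¹ * σ * φ ∈ A.inertiaSubgroupIn ℚ := by
  have h := Gal.conj_mem_inertia hσ φ⁻¹
  rwa [inv_inv, MulAction.mem_stabilizer_iff.mp (inv_mem hφ)] at h

theorem IsVal.conj {v : ℤ_[P]} (hv : IsVal A a v) {φ : Γℚ}
    (hφ : φ ∈ A.decompositionSubgroup ℚ) :
    IsVal A (fun σ => (chi P φ : ℤ_[P]) * a (φ⁻¹ * σ * φ)) v := fun k => by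
  obtain ⟨j, ⟨α, hu, hα⟩, hjv⟩ := hv k
  refine ⟨j, ⟨φ α, ?_, fun σ hσ => ?_⟩, hjv⟩
  · have h := map_mem_of_decomposition hφ hu
    rwa [map_div₀, map_pow, map_zpow₀, map_natCast] at h
  · have h := congrArg φ (hα _ (conj_mem_inertia_self hφ hσ))
    rw [map_mul, smul_epow] at h
    rw [← h, AlgEquiv.mul_apply, AlgEquiv.mul_apply, AlgEquiv.aut_inv, φ.apply_symm_apply]

theorem IsVal.exists_unit (hv : IsVal A a 0) (k : ℕ) :
    ∃ α : Qbar, IsUnitAt A α ∧ ∀ σ ∈ A.inertiaSubgroupIn ℚ, σ α = epow k (a σ) * α := by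
  obtain ⟨j, ⟨α, hu, hα⟩, hjv⟩ := hv k
  rw [zero_sub, neg_mem_iff, intCast_mem_span_iff] at hjv
  obtain ⟨i, rfl⟩ := hjv
  refine ⟨α / (P : Qbar) ^ i, isUnitAt_of_pow (pow_ne_zero k (Fact.out : P.Prime).ne_zero) ?_,
    fun σ hσ => ?_⟩
  · convert hu using 1
    rw [div_pow, ← zpow_natCast ((P : Qbar) ^ i), ← zpow_mul, mul_comm i]
    norm_cast
  · rw [map_div₀, map_zpow₀, map_natCast, hα σ hσ, mul_div_assoc]

end Fermat.Agent.Mazur.Descent
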