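import Mathlib.Data.Rat.Lemmas
import Fermat.Agent.Mazur.Descent.Line
import Fermat.Agent.Mazur.Descent.Valuation

/-!
# The count of cocycles unramified outside `P` and multiplicative, of unit type, at `P`

For a finite `P`-group `M` with residual characters in `{1, ω}`, with inertia at `P` cyclotomic on
`C` and trivial on `M / C`, there are at most `#C` such cocycles. Induction along a stable line:
Kummer theory over `ℤ` on lines in `C`, Minkowski on the other lines.
-/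

noncomputable section

open scoped Pointwise
open IntermediateField

namespace Fermat.Agent.Mazur.Descent

local notation "Qbar" => AlgebraicClosure ℚ
local notation "Γℚ" => AlgebraicClosure ℚ ≃ₐ[ℚ] AlgebraicClosure ℚ

section Defs

variable (p P : ℕ) (AP Ap : ValuationSubring Qbar) {M : Type} [AddCommGroup M]

/-- `c` comes from units at `A`. -/
def UnitType (A : ValuationSubring Qbar) (c : Γℚ → M) : Prop :=
  ∀ ψ : M →+ Additive Qbarˣ, ∃ α : Qbar, IsUnitAt A α ∧
    ∀ σ ∈ A.inertiaSubgroupIn ℚ, σ α = ((Additive.toMul (ψ (c σ)) : Qbarˣ) : Qbar) * α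

/-- The cocycles which are counted: finite level, unramified outside `P`, with values in `C` and of
unit type on inertia at `P`. -/
structure InZ (ρ : Γℚ →* AddMonoid.End M) (C : AddSubgroup M) (c : Γℚ → M) : Prop where
  cocycle : ∀ σ τ : Γℚ, c (σ * τ) = c σ + ρ σ (c τ)
  cont : ∃ E : IntermediateField ℚ Qbar, FiniteDimensional ℚ E ∧
    ∀ σ : Γℚ, (∀ a ∈ E, σ a = a) → c σ = 0
  unramified : ∀ ℓ : ℕ, ℓ.Prime → ℓ ≠ p → ℓ ≠ P → ∀ A : ValuationSubring Qbar,
    A.LiesOverPrime ℓ → ∀ σ ∈ A.inertiaSubgroupIn ℚ, c σ = 0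
  at_p : ∀ σ ∈ Ap.inertiaSubgroupIn ℚ, c σ = 0
  at_P : ∀ σ ∈ AP.inertiaSubgroupIn ℚ, c σ ∈ C
  unit : UnitType AP c

/-- The group of counted cocycles. -/
def zSub (ρ : Γℚ →* AddMonoid.End M) (C : AddSubgroup M) : AddSubgroup (Γℚ → M) where
  carrier := {c | InZ p P AP Ap ρ C c}
  zero_mem' :=
    { cocycle := fun σ τ => by simp
      cont := ⟨⊥, inferInstance, fun σ _ => rfl⟩
      unramified := fun _ _ _ _ _ _ _ _ => rfl
      at_p := fun _ _ => rfl
      at_P := fun _ _ => C.zero_mem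
      unit := fun ψ => ⟨1, IsUnitAt.one, fun σ _ => by simp⟩ }
  add_mem' := fun {c d} hc hd =>
    { cocycle := fun σ τ => by
        simp only [Pi.add_apply, hc.cocycle σ τ, hd.cocycle σ τ, map_add]; abel
      cont := by
        obtain ⟨E, hE, hc'⟩ := hc.cont
        obtain ⟨F, hF, hd'⟩ := hd.cont
        exact ⟨E ⊔ F, inferInstance, fun σ h => by
          rw [Pi.add_apply, hc' σ fun a ha => h a (le_sup_left (b := F) ha),
            hd' σ fun a ha => h a (le_sup_right (a := E) ha), add_zero]⟩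
      unramified := fun ℓ h1 h2 h3 A hA σ hσ => by
        rw [Pi.add_apply, hc.unramified ℓ h1 h2 h3 A hA σ hσ, hd.unramified ℓ h1 h2 h3 A hA σ hσ,
          add_zero]
      at_p := fun σ hσ => by rw [Pi.add_apply, hc.at_p σ hσ, hd.at_p σ hσ, add_zero]
      at_P := fun σ hσ => C.add_mem (hc.at_P σ hσ) (hd.at_P σ hσ)
      unit := fun ψ => by
        obtain ⟨α, hα, hα'⟩ := hc.unit ψ
        obtain ⟨β, hβ, hβ'⟩ := hd.unit ψ
        exact ⟨α * β, hα.mul hβ, fun σ hσ => by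
          rw [map_mul, hα' σ hσ, hβ' σ hσ, Pi.add_apply, map_add, toMul_add, Units.val_mul]
          ring⟩ }
  neg_mem' := fun {c} hc =>
    { cocycle := fun σ τ => by simp only [Pi.neg_apply, hc.cocycle σ τ, map_neg]; abel
      cont := by
        obtain ⟨E, hE, hc'⟩ := hc.cont
        exact ⟨E, hE, fun σ h => by rw [Pi.neg_apply, hc' σ h, neg_zero]⟩
      unramified := fun ℓ h1 h2 h3 A hA σ hσ => by
        rw [Pi.neg_apply, hc.unramified ℓ h1 h2 h3 A hA σ hσ, neg_zero]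
      at_p := fun σ hσ => by rw [Pi.neg_apply, hc.at_p σ hσ, neg_zero]
      at_P := fun σ hσ => C.neg_mem (hc.at_P σ hσ)
      unit := fun ψ => by
        obtain ⟨α, hα, hα'⟩ := hc.unit ψ
        exact ⟨α⁻¹, hα.inv, fun σ hσ => by
          rw [map_inv₀, hα' σ hσ, Pi.neg_apply, map_neg, toMul_neg, Units.val_inv_eq_inv_val,
            mul_inv]⟩ }

/-- The hypotheses of the count. -/
structure CountData (ν : Γℚ → ℕ) (ρ : Γℚ →* AddMonoid.End M) (C : AddSubgroup M) : Prop where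
  pgroup : ∀ x : M, ∃ k, P ^ k • x = 0
  res : ∀ σ, ∃ K : ℕ, ((ρ σ - 1) * (ρ σ - (ν σ : AddMonoid.End M))) ^ K = 0
  inertia_C : ∀ σ ∈ AP.inertiaSubgroupIn ℚ, ∀ x ∈ C, ρ σ x = ν σ • x
  inertia_quot : ∀ σ ∈ AP.inertiaSubgroupIn ℚ, ∀ x : M, ρ σ x - x ∈ C

end Defs

/-! ### Rational numbers with all valuations divisible by `P` -/

theorem exists_pow_of_dvd_padicValNat {P n : ℕ} (hn : n ≠ 0)
    (h : ∀ ℓ : ℕ, ℓ.Prime → P ∣ padicValNat ℓ n) : ∃ m : ℕ, m ≠ 0 ∧ m ^ P = n := by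
  classical
  refine ⟨n.factorization.prod fun ℓ e => ℓ ^ (e / P), ?_, ?_⟩
  · refine Finset.prod_ne_zero_iff.mpr fun ℓ hℓ => pow_ne_zero _ ?_
    exact (Nat.prime_of_mem_primeFactors hℓ).ne_zero
  · conv_rhs => rw [← Nat.prod_factorization_pow_eq_self hn]
    rw [Finsupp.prod, Finsupp.prod, ← Finset.prod_pow]
    refine Finset.prod_congr rfl fun ℓ hℓ => ?_
    have hℓ' : ℓ.Prime := Nat.prime_of_mem_primeFactors hℓ
    rw [← pow_mul]
    exact congrArg _ (Nat.div_mul_cancel (Nat.factorization_def n hℓ' ▸ h ℓ hℓ'))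

theorem padicValRat_eq_zero_of_isUnitAt {ℓ : ℕ} (hℓ : ℓ.Prime) {A : ValuationSubring Qbar}
    (hA : A.LiesOverPrime ℓ) {q : ℚ} (hu : IsUnitAt A (q : Qbar)) :
    padicValInt ℓ q.num = 0 ∧ padicValNat ℓ q.den = 0 := by
  have hmem : ∀ n : ℤ, ¬ (ℓ : ℤ) ∣ n → IsUnitAt A (n : Qbar) := fun n hn =>
    IsUnitAt.iff_mem.mpr ⟨intCast_mem A n, fun h =>
      hn ((Gal.intCast_mem_nonunits_iff hℓ hA n).mp h)⟩
  have heq : (q : Qbar) * ((q.den : ℤ) : Qbar) = (q.num : Qbar) := by
    rw [Rat.cast_def q]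
    push_cast
    field_simp
  have hnum : ¬ (ℓ : ℤ) ∣ q.num := by
    intro h
    have hden : ¬ (ℓ : ℤ) ∣ q.den := fun h' =>
      hℓ.not_dvd_one
          (q.reduced ▸ Nat.dvd_gcd (Int.natCast_dvd.mp h) (Int.natCast_dvd_natCast.mp h'))
    exact (IsUnitAt.iff_mem.mp (heq ▸ hu.mul (hmem _ hden))).2
      ((Gal.intCast_mem_nonunits_iff hℓ hA _).mpr h)
  have hden : ¬ ℓ ∣ q.den := by
    intro h
    have h1 : IsUnitAt A (((q.den : ℤ) : Qbar)) := by
      have := (hmem _ hnum).div hu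
      rwa [← heq, mul_div_cancel_left₀ _ hu.ne_zero] at this
    exact (IsUnitAt.iff_mem.mp h1).2
      ((Gal.intCast_mem_nonunits_iff hℓ hA _).mpr (Int.natCast_dvd_natCast.mpr h))
  exact ⟨padicValInt.eq_zero_of_not_dvd hnum, padicValNat.eq_zero_of_not_dvd hden⟩

theorem padicValRat_eq_of_isUnitAt {ℓ : ℕ} (hℓ : ℓ.Prime) {A : ValuationSubring Qbar}
    (hA : A.LiesOverPrime ℓ) {q : ℚ} (hq : q ≠ 0) {i : ℤ}
    (hu : IsUnitAt A ((q : Qbar) / (ℓ : Qbar) ^ i)) : padicValRat ℓ q = i := by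
  have : Fact ℓ.Prime := ⟨hℓ⟩
  have hℓ0 : (ℓ : ℚ) ≠ 0 := by exact_mod_cast hℓ.ne_zero
  have hu' : IsUnitAt A (((q / (ℓ : ℚ) ^ i : ℚ)) : Qbar) := by
    rw [Rat.cast_div, Rat.cast_zpow, Rat.cast_natCast]; exact hu
  obtain ⟨h1, h2⟩ := padicValRat_eq_zero_of_isUnitAt hℓ hA hu'
  have h3 : padicValRat ℓ (q / (ℓ : ℚ) ^ i) = 0 := by simp [padicValRat, h1, h2]
  rw [padicValRat.div hq (zpow_ne_zero _ hℓ0), padicValRat.zpow, padicValRat.self hℓ.one_lt] at h3
  linarith

theorem exists_pow_of_dvd_padicValRat {P : ℕ} {q : ℚ} (hq : q ≠ 0)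
    (h : ∀ ℓ : ℕ, ℓ.Prime → (P : ℤ) ∣ padicValRat ℓ q) :
    ∃ y : ℚ, y ≠ 0 ∧ (q = y ^ P ∨ q = -y ^ P) := by
  have hsep : ∀ ℓ : ℕ, ℓ.Prime → P ∣ padicValNat ℓ q.num.natAbs ∧ P ∣ padicValNat ℓ q.den := by
    intro ℓ hℓ
    have hdiv := h ℓ hℓ
    rw [padicValRat] at hdiv
    by_cases hn : ℓ ∣ q.num.natAbs
    · have hd : padicValNat ℓ q.den = 0 := padicValNat.eq_zero_of_not_dvd fun h' =>
        hℓ.not_dvd_one (q.reduced ▸ Nat.dvd_gcd hn h')
      rw [hd, Nat.cast_zero, sub_zero] at hdiv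
      exact ⟨Int.natCast_dvd_natCast.mp hdiv, hd ▸ dvd_zero P⟩
    · have hn' : padicValNat ℓ q.num.natAbs = 0 := padicValNat.eq_zero_of_not_dvd hn
      rw [padicValInt, hn', Nat.cast_zero, zero_sub, dvd_neg] at hdiv
      exact ⟨hn' ▸ dvd_zero P, Int.natCast_dvd_natCast.mp hdiv⟩
  obtain ⟨a, ha, hae⟩ := exists_pow_of_dvd_padicValNat
    (Int.natAbs_ne_zero.mpr (Rat.num_ne_zero.mpr hq)) fun ℓ hℓ => (hsep ℓ hℓ).1
  obtain ⟨b, hb, hbe⟩ := exists_pow_of_dvd_padicValNat q.den_nz fun ℓ hℓ => (hsep ℓ hℓ).2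
  refine ⟨(a : ℚ) / b, div_ne_zero (Nat.cast_ne_zero.mpr ha) (Nat.cast_ne_zero.mpr hb), ?_⟩
  rw [div_pow, ← Nat.cast_pow, ← Nat.cast_pow, hae, hbe]
  rcases Int.natAbs_eq q.num with hs | hs
  · left
    conv_lhs => rw [← Rat.num_div_den q, hs, Int.cast_natCast]
  · right
    conv_lhs => rw [← Rat.num_div_den q, hs, Int.cast_neg, Int.cast_natCast, neg_div]

theorem exists_rat_eq_of_fixed {z : Qbar} (h : ∀ σ : Γℚ, σ z = z) : ∃ q : ℚ, (q : Qbar) = z := by
  have hz : z ∈ (⊥ : IntermediateField ℚ Qbar) := by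
    rw [← InfiniteGalois.fixedField_fixingSubgroup (⊥ : IntermediateField ℚ Qbar)]
    exact fun g => h g
  obtain ⟨q, hq⟩ := IntermediateField.mem_bot.mp hz
  exact ⟨q, by rw [← hq, eq_ratCast]⟩

variable {p P : ℕ} [Fact P.Prime] {AP Ap : ValuationSubring Qbar} {ν : Γℚ → ℕ}

/-- If inertia at one place over `P` fixes `ζ_P`, then everything does. -/
theorem zeta_fixed_of_inertia (hAP : AP.LiesOverPrime P)
    (h : ∀ σ ∈ AP.inertiaSubgroupIn ℚ, σ (zeta P 1) = zeta P 1) (σ : Γℚ) :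
    σ (zeta P 1) = zeta P 1 := by
  have hP : P.Prime := Fact.out
  have hpow : zeta P 1 ^ P = 1 := by simpa using (zeta_prim P 1).pow_eq_one
  have : FiniteDimensional ℚ ℚ⟮zeta P 1⟯ := adjoin.finiteDimensional
    (Algebra.IsAlgebraic.isAlgebraic (R := ℚ) _).isIntegral
  have hbot : ℚ⟮zeta P 1⟯ = ⊥ :=
      Gal.intermediateField_eq_bot_of_unramified _ fun ℓ hℓ A hA τ hτ => by
    have hfix : τ (zeta P 1) = zeta P 1 := by
      by_cases hℓP : ℓ = P
      · subst hℓP
        obtain ⟨g, hg⟩ := Gal.exists_smul_eq hℓ hAP hA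
        have hmem : g⁻¹ * τ * g ∈ AP.inertiaSubgroupIn ℚ := by
          have h1 := Gal.conj_mem_inertia hτ g⁻¹
          rwa [inv_inv, ← hg, inv_smul_smul] at h1
        have h2 := (zeta_prim ℓ 1).eq_pow_of_pow_eq_one (ξ := g⁻¹ (zeta ℓ 1))
          (by rw [← map_pow, pow_one, hpow, map_one])
        obtain ⟨i, -, hi⟩ := h2
        have h3 : (g⁻¹ * τ * g) (g⁻¹ (zeta ℓ 1)) = g⁻¹ (zeta ℓ 1) := by
          rw [← hi, map_pow, h _ hmem]
        rw [AlgEquiv.mul_apply, AlgEquiv.mul_apply, AlgEquiv.aut_inv,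
          AlgEquiv.apply_symm_apply] at h3
        exact g.symm.injective h3
      · exact Gal.inertia_rootOfUnity hℓ hA hτ (fun hd => hℓP
          ((Nat.prime_dvd_prime_iff_eq hℓ hP).mp hd)) hpow
    intro x hx
    have hle : ℚ⟮zeta P 1⟯ ≤ IntermediateField.fixedField (Subgroup.zpowers τ) :=
      IntermediateField.adjoin_le_iff.mpr fun y hy => by
        rw [Set.mem_singleton_iff.mp hy]
        rintro ⟨k, j, rfl⟩
        exact zpow_mem (K := MulAction.stabilizer Γℚ (zeta P 1)) hfix j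
    exact hle hx ⟨τ, Subgroup.mem_zpowers τ⟩
  have hmem : zeta P 1 ∈ (⊥ : IntermediateField ℚ Qbar) := hbot ▸ mem_adjoin_simple_self ℚ _
  obtain ⟨q, hq⟩ := IntermediateField.mem_bot.mp hmem
  rw [← hq]
  exact σ.commutes q

variable {M : Type} [AddCommGroup M] [Finite M] {ρ : Γℚ →* AddMonoid.End M} {C : AddSubgroup M}

omit [Finite M] in
theorem exists_zsmul_of_mem {x y : M} (hy : y ∈ AddSubgroup.zmultiples x) : ∃ n : ℤ, y = n • x := by
  obtain ⟨n, rfl⟩ := hy
  exact ⟨n, rfl⟩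

omit [Finite M] in
/-- A line meeting `C` lies in it. -/
theorem line_inf_cases {x : M} (hx : P • x = 0) :
    x ∈ C ∨ C ⊓ AddSubgroup.zmultiples x = ⊥ := by
  by_cases h : x ∈ C
  · exact Or.inl h
  refine Or.inr ((AddSubgroup.eq_bot_iff_forall _).mpr ?_)
  rintro y ⟨hyC, n, rfl⟩
  by_contra hne
  have hx' : (P : ℤ) • x = 0 := by rw [natCast_zsmul, hx]
  have hn : ¬ (P : ℤ) ∣ n := by
    rintro ⟨m, rfl⟩
    exact hne (by rw [mul_comm]; simp only [mul_smul, hx', smul_zero])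
  obtain ⟨a, b, hab⟩ :=
    (Nat.prime_iff_prime_int.mp (Fact.out : P.Prime)).coprime_iff_not_dvd.mpr hn
  refine h ?_
  have : x = a • (P : ℤ) • x + b • n • x := by
    rw [smul_smul, smul_smul, ← add_smul, hab, one_smul]
  rw [this, hx', smul_zero, zero_add]
  exact C.zsmul_mem hyC b

omit [Finite M] in
theorem fix_of_line {x : M} (h : ∀ σ, ρ σ x = x) {σ : Γℚ} {y : M}
    (hy : y ∈ AddSubgroup.zmultiples x) : ρ σ y = y := by
  obtain ⟨n, rfl⟩ := exists_zsmul_of_mem hy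
  rw [map_zsmul, h]

omit [Finite M] in
theorem cocycle_one {c : Γℚ → M} (h : ∀ σ τ : Γℚ, c (σ * τ) = c σ + ρ σ (c τ)) : c 1 = 0 := by
  have := h 1 1
  rw [mul_one, map_one, AddMonoid.End.coe_one, id] at this
  simpa using this

omit [Finite M] in
/-- A counted cocycle with values in a line meeting `C` trivially is zero (Minkowski). -/
theorem eq_zero_of_line_outside (hν : IsCycloExp (P := P) ν) (hAP : AP.LiesOverPrime P)
    (hAp : Ap.LiesOverPrime p)
    (hd : CountData P AP ν ρ C) {x : M} (hx0 : x ≠ 0) (hx : P • x = 0)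
    (hbot : C ⊓ AddSubgroup.zmultiples x = ⊥)
    (hact : (∀ σ, ρ σ x = x) ∨ ∀ σ, ρ σ x = ν σ • x) {c : Γℚ → M}
    (hc : InZ p P AP Ap ρ C c) (hcF : ∀ σ, c σ ∈ AddSubgroup.zmultiples x) : c = 0 := by
  have hP : P.Prime := Fact.out
  have hord : addOrderOf x = P := addOrderOf_eq_prime hx hx0
  have hI : ∀ σ ∈ AP.inertiaSubgroupIn ℚ, ρ σ x = x := by
    intro σ hσ
    have hmem : ρ σ x - x ∈ AddSubgroup.zmultiples x := by
      rcases hact with h | h
      · rw [h, sub_self]; exact zero_mem _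
      · rw [h]
        exact sub_mem (nsmul_mem (AddSubgroup.mem_zmultiples x) _) (AddSubgroup.mem_zmultiples x)
    have h0 : ρ σ x - x ∈ C ⊓ AddSubgroup.zmultiples x := ⟨hd.inertia_quot σ hσ x, hmem⟩
    rw [hbot, AddSubgroup.mem_bot, sub_eq_zero] at h0
    exact h0
  have htriv : ∀ σ, ρ σ x = x := by
    rcases hact with h | h
    · exact h
    intro σ
    have hz : ∀ τ ∈ AP.inertiaSubgroupIn ℚ, τ (zeta P 1) = zeta P 1 := fun τ hτ => by
      have h1 : (1 : ℕ) • x = ν τ • x := by rw [← h, hI τ hτ, one_smul]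
      rw [hν τ]
      conv_rhs => rw [← pow_one (zeta P 1)]
      have hfin : IsOfFinOrder (zeta P 1) := orderOf_pos_iff.mp
        (by rw [zeta_one_orderOf]; exact hP.pos)
      rw [hfin.pow_eq_pow_iff_modEq, zeta_one_orderOf, ← hord]
      exact ((nsmul_inj_mod.mp h1).symm)
    have h2 : (ν σ : ZMod P) = ((1 : ℕ) : ZMod P) := natCast_eq_of_zeta_pow_eq (by
      rw [← hν σ, pow_one, zeta_fixed_of_inertia hAP hz σ])
    rw [h, nsmul_eq_of_natCast_eq hx h2, one_smul]
  let f : Γℚ →* Multiplicative M :=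
    MonoidHom.mk' (fun σ => Multiplicative.ofAdd (c σ)) fun σ τ => by
      rw [hc.cocycle, fix_of_line htriv (hcF τ), ofAdd_add]
  have hconj : ∀ (A B : ValuationSubring Qbar) (g : Γℚ), g • B = A →
      (∀ σ ∈ B.inertiaSubgroupIn ℚ, c σ = 0) → ∀ σ ∈ A.inertiaSubgroupIn ℚ, c σ = 0 := by
    intro A B g hg hB σ hσ
    have hmem : g⁻¹ * σ * g ∈ B.inertiaSubgroupIn ℚ := by
      have h1 := Gal.conj_mem_inertia hσ g⁻¹
      rwa [inv_inv, ← hg, inv_smul_smul] at h1
    have h2 : f (g⁻¹ * σ * g) = 1 := congrArg Multiplicative.ofAdd (hB _ hmem)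
    rw [map_mul, map_mul, map_inv, mul_comm _ (f σ), inv_mul_cancel_right] at h2
    exact congrArg Multiplicative.toAdd h2
  obtain ⟨E, hE, hcont⟩ := hc.cont
  funext σ
  have hf := Gal.eq_one_of_unramified f
    ⟨E, hE, fun τ hτ => congrArg Multiplicative.ofAdd (hcont τ hτ)⟩ (fun ℓ hℓ A hA τ hτ => by
      refine congrArg Multiplicative.ofAdd ?_
      by_cases h1 : ℓ = p
      · subst h1
        obtain ⟨g, hg⟩ := Gal.exists_smul_eq hℓ hAp hA
        exact hconj A Ap g hg hc.at_p τ hτ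
      by_cases h2 : ℓ = P
      · subst h2
        obtain ⟨g, hg⟩ := Gal.exists_smul_eq hℓ hAP hA
        refine hconj A AP g hg (fun σ hσ => ?_) τ hτ
        have h0 : c σ ∈ C ⊓ AddSubgroup.zmultiples x := ⟨hc.at_P σ hσ, hcF σ⟩
        rwa [hbot, AddSubgroup.mem_bot] at h0
      exact hc.unramified ℓ hℓ h1 h2 A hA τ hτ) σ
  exact congrArg Multiplicative.toAdd hf

/-- The possible Kummer generators: `θ ^ i` up to sign. -/
theorem exists_theta : ∃ θ : Qbar, θ ≠ 0 ∧ ∀ η : Qbar, (η ^ P = 1 ∨ η ^ P = -1) →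
    ∃ i : Fin P, η = θ ^ (i : ℕ) ∨ η = -θ ^ (i : ℕ) := by
  have hP : P.Prime := Fact.out
  rcases hP.eq_two_or_odd' with hP2 | hodd
  · refine ⟨zeta P 2, zeta_ne_zero P 2, fun η hη => ?_⟩
    subst hP2
    have hsq : zeta 2 2 ^ 2 = -1 := (zeta_succ_pow 2 1).trans
      (IsPrimitiveRoot.eq_neg_one_of_two_right (by simpa using zeta_prim 2 1))
    rcases hη with h | h
    · refine ⟨⟨0, by norm_num⟩, ?_⟩
      simpa using (sq_eq_one_iff.mp h)
    · refine ⟨⟨1, by norm_num⟩, ?_⟩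
      rw [← hsq] at h
      simpa using sq_eq_sq_iff_eq_or_eq_neg.mp h
  · refine ⟨zeta P 1, zeta_ne_zero P 1, fun η hη => ?_⟩
    have hprim : IsPrimitiveRoot (zeta P 1) P := by simpa using zeta_prim P 1
    have : NeZero P := ⟨hP.ne_zero⟩
    rcases hη with h | h
    · obtain ⟨i, hi, hi'⟩ := hprim.eq_pow_of_pow_eq_one h
      exact ⟨⟨i, hi⟩, Or.inl hi'.symm⟩
    · obtain ⟨i, hi, hi'⟩ := hprim.eq_pow_of_pow_eq_one (ξ := -η) (by rw [hodd.neg_pow, h, neg_neg])
      exact ⟨⟨i, hi⟩, Or.inr (by rw [hi', neg_neg])⟩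

omit [Finite M] in
/-- At most `P` counted cocycles have values in a cyclotomic line (Kummer theory over `ℤ`). -/
theorem natCard_cocycles_line_le (hν : IsCycloExp (P := P) ν) (hAP : AP.LiesOverPrime P)
    (hAp : Ap.LiesOverPrime p)
    {x : M} (hx0 : x ≠ 0) (hx : P • x = 0)
    (hact : ∀ σ, ρ σ x = ν σ • x) :
    Finite {c // InZ p P AP Ap ρ C c ∧ ∀ σ, c σ ∈ AddSubgroup.zmultiples x} ∧
      Nat.card {c // InZ p P AP Ap ρ C c ∧ ∀ σ, c σ ∈ AddSubgroup.zmultiples x} ≤ P := by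
  classical
  have hP : P.Prime := Fact.out
  have hord : addOrderOf x = P := addOrderOf_eq_prime hx hx0
  -- `ψ x = ζ`
  let ζu : Qbarˣ := Units.mk0 (zeta P 1) (zeta_ne_zero P 1)
  have hζord : addOrderOf (Additive.ofMul ζu) = P := by
    rw [addOrderOf_ofMul_eq_orderOf, ← orderOf_units]
    exact zeta_one_orderOf
  let z : AddSubgroup.zmultiples x → Additive Qbarˣ := fun y =>
    (Classical.choose y.2 : ℤ) • Additive.ofMul ζu
  have hz : ∀ (n : ℤ) (y : AddSubgroup.zmultiples x), (y : M) = n • x →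
      z y = n • Additive.ofMul ζu := by
    intro n y hy
    have hc : Classical.choose y.2 • x = n • x := (Classical.choose_spec y.2).trans hy
    rw [zsmul_eq_zsmul_iff_modEq, hord, ← hζord, ← zsmul_eq_zsmul_iff_modEq] at hc
    exact hc
  obtain ⟨ψ, hψ⟩ := exists_extend (AddSubgroup.zmultiples x)
    (AddMonoidHom.mk' z fun y y' => by
      obtain ⟨n, hn⟩ := exists_zsmul_of_mem y.2
      obtain ⟨n', hn'⟩ := exists_zsmul_of_mem y'.2
      rw [hz n y hn, hz n' y' hn']
      exact (hz (n + n') _ (by rw [AddSubgroup.coe_add, hn, hn', add_smul])).trans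
          (add_zsmul _ _ _))
  let e : M → Qbar := fun y => ((Additive.toMul (ψ y) : Qbarˣ) : Qbar)
  have he : ∀ n : ℤ, e (n • x) = zeta P 1 ^ n := fun n => by
    have h1 := hψ ⟨n • x, AddSubgroup.zsmul_mem_zmultiples x n⟩
    simp only [AddMonoidHom.mk'_apply] at h1
    rw [hz n _ rfl] at h1
    simp only [e, h1, toMul_zsmul, toMul_ofMul, Units.val_zpow_eq_zpow_val]
    rfl
  have he_add : ∀ y y', e (y + y') = e y * e y' := fun y y' => by
    simp only [e, map_add, toMul_add, Units.val_mul]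
  have he0 : ∀ y, e y ≠ 0 := fun y => Units.ne_zero _
  have he_inj : ∀ y ∈ AddSubgroup.zmultiples x, ∀ y' ∈ AddSubgroup.zmultiples x,
      e y = e y' → y = y' := by
    intro y hy y' hy' h
    obtain ⟨n, rfl⟩ := exists_zsmul_of_mem hy
    obtain ⟨n', rfl⟩ := exists_zsmul_of_mem hy'
    rw [he, he] at h
    rw [zsmul_eq_zsmul_iff_modEq, hord, ← hζord, ← zsmul_eq_zsmul_iff_modEq, ← ofMul_zpow,
      ← ofMul_zpow]
    exact congrArg Additive.ofMul (Units.ext (by simpa [ζu] using h))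
  have he_act : ∀ σ, ∀ y ∈ AddSubgroup.zmultiples x, e (ρ σ y) = σ (e y) := by
    intro σ y hy
    obtain ⟨n, rfl⟩ := exists_zsmul_of_mem hy
    rw [map_zsmul, hact, he, map_zpow₀, hν σ, ← zpow_natCast, ← zpow_mul, ← natCast_zsmul,
      smul_smul, he, mul_comm]
  obtain ⟨θ, hθ0, hθ⟩ := exists_theta (P := P)
  have key : ∀ c : {c // InZ p P AP Ap ρ C c ∧ ∀ σ, c σ ∈ AddSubgroup.zmultiples x},
      ∃ i : Fin P, ∀ σ, e (c.1 σ) * θ ^ (i : ℕ) = σ (θ ^ (i : ℕ)) := by
    rintro ⟨c, hc, hcF⟩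
    obtain ⟨E, hE, hcont⟩ := hc.cont
    obtain ⟨β, hβ0, hβ⟩ := exists_kummer ⊤ (fun σ => e (c σ)) (fun σ _ => he0 _)
      (fun σ _ τ _ => by
        show e (c (σ * τ)) = e (c σ) * σ (e (c τ))
        rw [hc.cocycle, he_add, he_act σ _ (hcF τ)])
      ⟨E, hE, fun σ _ h => by
        show e (c σ) = 1
        rw [hcont σ h, ← zero_smul ℤ x, he, zpow_zero]⟩
    have hβ' : ∀ σ : Γℚ, σ β = e (c σ) * β := fun σ => hβ σ trivial
    have heP : ∀ σ, e (c σ) ^ P = 1 := fun σ => by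
      obtain ⟨n, hn⟩ := exists_zsmul_of_mem (hcF σ)
      rw [hn, he, ← zpow_natCast, ← zpow_mul, mul_comm, zpow_mul, zpow_natCast]
      rw [show zeta P 1 ^ P = 1 by simpa using (zeta_prim P 1).pow_eq_one, one_zpow]
    obtain ⟨q, hq⟩ := exists_rat_eq_of_fixed (z := β ^ P) fun σ => by
      rw [map_pow, hβ', mul_pow, heP, one_mul]
    have hq0 : q ≠ 0 := by
      rintro rfl
      exact pow_ne_zero P hβ0 (by simpa using hq.symm)
    have hdiv : ∀ ℓ : ℕ, ℓ.Prime → (P : ℤ) ∣ padicValRat ℓ q := by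
      intro ℓ hℓ
      -- inertia-fixed elements
      suffices ∃ (A : ValuationSubring Qbar) (j : ℤ), A.LiesOverPrime ℓ ∧
          IsUnitAt A (β / (ℓ : Qbar) ^ j) by
        obtain ⟨A, j, hA, hu⟩ := this
        refine ⟨j, padicValRat_eq_of_isUnitAt hℓ hA hq0 ?_⟩
        convert hu.pow P using 1
        rw [hq, div_pow, ← zpow_natCast ((ℓ : Qbar) ^ j), ← zpow_mul, mul_comm]
      by_cases hℓP : ℓ = P
      · subst hℓP
        obtain ⟨α, hα, hα'⟩ := hc.unit ψ
        obtain ⟨j, hj⟩ := exists_unit_mul_zpow hℓ hAP (div_ne_zero hβ0 hα.ne_zero) fun σ hσ => by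
          rw [map_div₀, hβ', hα' σ hσ]
          exact mul_div_mul_left _ _ (he0 _)
        refine ⟨AP, j, hAP, ?_⟩
        have := hj.mul hα
        rwa [div_mul_eq_mul_div, div_mul_cancel₀ _ hα.ne_zero] at this
      · obtain ⟨A, hA, hfix⟩ : ∃ A : ValuationSubring Qbar, A.LiesOverPrime ℓ ∧
            ∀ σ ∈ A.inertiaSubgroupIn ℚ, c σ = 0 := by
          by_cases hℓp : ℓ = p
          · exact ⟨Ap, hℓp ▸ hAp, hc.at_p⟩
          · obtain ⟨A, hA⟩ := Gal.exists_liesOverPrime hℓ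
            exact ⟨A, hA, hc.unramified ℓ hℓ hℓp hℓP A hA⟩
        obtain ⟨j, hj⟩ := exists_unit_mul_zpow hℓ hA hβ0 fun σ hσ => by
          rw [hβ', hfix σ hσ, ← zero_smul ℤ x, he, zpow_zero, one_mul]
        exact ⟨A, j, hA, hj⟩
    obtain ⟨y, hy0, hy⟩ := exists_pow_of_dvd_padicValRat hq0 hdiv
    have hy0' : (y : Qbar) ≠ 0 := Rat.cast_ne_zero.mpr hy0
    obtain ⟨i, hi⟩ := hθ (β / (y : Qbar)) (by
      rcases hy with h | h
      · left
        rw [div_pow, ← hq, h, Rat.cast_pow, div_self (pow_ne_zero P hy0')]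
      · right
        rw [div_pow, ← hq, h, Rat.cast_neg, Rat.cast_pow, neg_div, div_self (pow_ne_zero P hy0')])
    refine ⟨i, fun σ => ?_⟩
    have hσy : σ (β / (y : Qbar)) = e (c σ) * (β / (y : Qbar)) := by
      rw [map_div₀, hβ', map_ratCast, mul_div_assoc]
    rcases hi with hi | hi
    · rw [← hi, ← hσy]
    · rw [hi, map_neg, mul_neg, neg_inj] at hσy
      exact hσy.symm
  choose i hi using key
  have hinj : Function.Injective i := by
    intro c d h
    refine Subtype.ext (funext fun σ => he_inj _ (c.2.2 σ) _ (d.2.2 σ) ?_)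
    exact mul_right_cancel₀ (pow_ne_zero _ hθ0) ((hi c σ).trans (h ▸ (hi d σ).symm))
  exact ⟨Finite.of_injective i hinj,
      (Nat.card_le_card_of_injective i hinj).trans_eq (Nat.card_fin P)⟩

/-- The action induced on the quotient by a stable subgroup. -/
def quotRho {F : AddSubgroup M} (ρ : Γℚ →* AddMonoid.End M) (hF : ∀ σ, ∀ y ∈ F, ρ σ y ∈ F) :
    Γℚ →* AddMonoid.End (M ⧸ F) where
  toFun σ := QuotientAddGroup.map F F (ρ σ) fun y hy => hF σ y hy
  map_one' := QuotientAddGroup.addMonoidHom_ext _ (AddMonoidHom.ext fun y => by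
    show QuotientAddGroup.mk (ρ 1 y) = QuotientAddGroup.mk y
    rw [map_one]; rfl)
  map_mul' σ τ := QuotientAddGroup.addMonoidHom_ext _ (AddMonoidHom.ext fun y => by
    show QuotientAddGroup.mk (ρ (σ * τ) y) = QuotientAddGroup.mk (ρ σ (ρ τ y))
    rw [map_mul]; rfl)

omit [Fact (Nat.Prime P)] [Finite M] in
/-- The hypotheses of the count pass to quotients by stable subgroups. -/
theorem CountData.quot {F : AddSubgroup M} (hd : CountData P AP ν ρ C)
    (hF : ∀ σ, ∀ y ∈ F, ρ σ y ∈ F) :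
    CountData P AP ν (quotRho ρ hF) (C.map (QuotientAddGroup.mk' F)) where
  pgroup := QuotientAddGroup.mk_surjective.forall.mpr fun y => by
    obtain ⟨k, hk⟩ := hd.pgroup y
    exact ⟨k, by rw [← QuotientAddGroup.mk_nsmul, hk]; rfl⟩
  res σ := by
    obtain ⟨K, hK⟩ := hd.res σ
    refine ⟨K, AddMonoidHom.ext (QuotientAddGroup.mk_surjective.forall.mpr fun y => ?_)⟩
    set B := (ρ σ - 1) * (ρ σ - (ν σ : AddMonoid.End M)) with hB
    set B' := (quotRho ρ hF σ - 1) * (quotRho ρ hF σ - (ν σ : AddMonoid.End (M ⧸ F))) with hB'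
    have h1 : ∀ z : M, B' (QuotientAddGroup.mk z) = QuotientAddGroup.mk (B z) := by
      intro z
      show quotRho ρ hF σ (quotRho ρ hF σ (QuotientAddGroup.mk z) - ν σ • QuotientAddGroup.mk z) -
          (quotRho ρ hF σ (QuotientAddGroup.mk z) - ν σ • QuotientAddGroup.mk z) =
        QuotientAddGroup.mk (ρ σ (ρ σ z - ν σ • z) - (ρ σ z - ν σ • z))
      simp only [QuotientAddGroup.mk_sub, QuotientAddGroup.mk_nsmul, map_sub, map_nsmul]
      rfl
    have h2 : ∀ (i : ℕ) (z : M), (B' ^ i) (QuotientAddGroup.mk z) =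
        QuotientAddGroup.mk ((B ^ i) z) := by
      intro i
      induction i with
      | zero => exact fun z => rfl
      | succ i ih =>
        intro z
        rw [pow_succ, pow_succ]
        show (B' ^ i) (B' _) = QuotientAddGroup.mk ((B ^ i) (B z))
        rw [h1, ih]
    show (B' ^ K) _ = _
    rw [h2, hK]
    rfl
  inertia_C σ hσ := by
    rintro _ ⟨y, hy, rfl⟩
    show QuotientAddGroup.mk (ρ σ y) = ν σ • QuotientAddGroup.mk y
    rw [hd.inertia_C σ hσ y hy, QuotientAddGroup.mk_nsmul]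
  inertia_quot σ hσ := QuotientAddGroup.mk_surjective.forall.mpr fun y =>
    ⟨_, hd.inertia_quot σ hσ y, QuotientAddGroup.mk_sub F _ _⟩

/-- The count: at most `#C` cocycles. -/
theorem natCard_zSub_le (hν : IsCycloExp (P := P) ν) (hAP : AP.LiesOverPrime P)
    (hAp : Ap.LiesOverPrime p)
    (hd : CountData P AP ν ρ C) :
    Finite (zSub p P AP Ap ρ C) ∧ Nat.card (zSub p P AP Ap ρ C) ≤ Nat.card C := by
  obtain ⟨n, hn⟩ : ∃ n, Nat.card M = n := ⟨_, rfl⟩
  induction n using Nat.strong_induction_on generalizing M with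
  | _ n ih =>
    rcases subsingleton_or_nontrivial M with hM | hM
    · have : Subsingleton (Γℚ → M) := inferInstance
      exact ⟨inferInstance,
          (Finite.card_le_one_iff_subsingleton.mpr inferInstance).trans Nat.card_pos⟩
    obtain ⟨x, hx0, hx, hact⟩ := exists_line hν ρ hd.pgroup hd.res (exists_ne 0)
    set F := AddSubgroup.zmultiples x
    have hF : ∀ σ, ∀ y ∈ F, ρ σ y ∈ F := by
      intro σ y hy
      obtain ⟨m, rfl⟩ := exists_zsmul_of_mem hy
      rw [map_zsmul]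
      refine F.zsmul_mem ?_ m
      rcases hact with h | h
      · rw [h]; exact AddSubgroup.mem_zmultiples x
      · rw [h]; exact F.nsmul_mem (AddSubgroup.mem_zmultiples x) _
    have hFcard : Nat.card F = P := by
      rw [Nat.card_zmultiples]; exact addOrderOf_eq_prime hx hx0
    have hlt : Nat.card (M ⧸ F) < n := by
      have h1 := AddSubgroup.card_eq_card_quotient_mul_card_addSubgroup F
      rw [hFcard, hn] at h1
      have h2 : 2 ≤ P := (Fact.out : P.Prime).two_le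
      have h3 : 0 < Nat.card (M ⧸ F) := Nat.card_pos
      nlinarith
    obtain ⟨hfin, hle⟩ := ih _ hlt (hd.quot hF) rfl
    let f : zSub p P AP Ap ρ C →+ (Γℚ → M ⧸ F) :=
      ((QuotientAddGroup.mk' F).compLeft Γℚ).comp (zSub p P AP Ap ρ C).subtype
    have hrange : ∀ d ∈ f.range,
        d ∈ zSub p P AP Ap (quotRho ρ hF) (C.map (QuotientAddGroup.mk' F)) := by
      rintro _ ⟨⟨c, hc⟩, rfl⟩
      exact
        { cocycle := fun σ τ => by
            show QuotientAddGroup.mk (c (σ * τ)) =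
              QuotientAddGroup.mk (c σ) + QuotientAddGroup.mk (ρ σ (c τ))
            rw [hc.cocycle, QuotientAddGroup.mk_add]
          cont := by
            obtain ⟨E, hE, hc'⟩ := hc.cont
            exact ⟨E, hE, fun σ h => congrArg QuotientAddGroup.mk (hc' σ h)⟩
          unramified := fun ℓ h1 h2 h3 A hA σ hσ =>
            congrArg QuotientAddGroup.mk (hc.unramified ℓ h1 h2 h3 A hA σ hσ)
          at_p := fun σ hσ => congrArg QuotientAddGroup.mk (hc.at_p σ hσ)
          at_P := fun σ hσ => ⟨_, hc.at_P σ hσ, rfl⟩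
          unit := fun ψ => hc.unit (ψ.comp (QuotientAddGroup.mk' F)) }
    have hker : Finite f.ker ∧ Nat.card f.ker ≤ Nat.card (C ⊓ F : AddSubgroup M) := by
      let g : f.ker → {c // InZ p P AP Ap ρ C c ∧ ∀ σ, c σ ∈ F} := fun c =>
        ⟨c.1.1, c.1.2, fun σ => (QuotientAddGroup.eq_zero_iff _).mp (congrFun c.2 σ)⟩
      have hg : Function.Injective g := fun c d h =>
        Subtype.ext (Subtype.ext (congrArg (fun z => z.1) h))
      rcases line_inf_cases (C := C) hx with hxC | hbot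
      · have hCF : C ⊓ F = F := inf_eq_right.mpr (AddSubgroup.zmultiples_le_of_mem hxC)
        have hact' : ∀ σ, ρ σ x = ν σ • x := by
          rcases hact with h | h
          swap
          · exact h
          intro σ
          have hz : ∀ τ ∈ AP.inertiaSubgroupIn ℚ, τ (zeta P 1) = zeta P 1 := fun τ hτ => by
            have h1 : (1 : ℕ) • x = ν τ • x := by rw [← hd.inertia_C τ hτ x hxC, h, one_smul]
            have h2 := nsmul_inj_mod.mp h1
            rw [addOrderOf_eq_prime hx hx0] at h2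
            rw [hν τ]
            conv_rhs => rw [← pow_one (zeta P 1)]
            have hfin : IsOfFinOrder (zeta P 1) := orderOf_pos_iff.mp
              (by rw [zeta_one_orderOf]; exact (Fact.out : P.Prime).pos)
            rw [hfin.pow_eq_pow_iff_modEq, zeta_one_orderOf]
            exact h2.symm
          have h2 : (ν σ : ZMod P) = ((1 : ℕ) : ZMod P) := natCast_eq_of_zeta_pow_eq (by
            rw [← hν σ, pow_one, zeta_fixed_of_inertia hAP hz σ])
          rw [h, nsmul_eq_of_natCast_eq hx h2, one_smul]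
        obtain ⟨hfin', hle'⟩ := natCard_cocycles_line_le (C := C) hν hAP hAp hx0 hx hact'
        exact ⟨Finite.of_injective g hg, (Nat.card_le_card_of_injective g hg).trans
          (hle'.trans_eq (by rw [hCF, hFcard]))⟩
      · have hsub : Subsingleton f.ker := ⟨fun c d => hg (Subtype.ext (by
          rw [eq_zero_of_line_outside hν hAP hAp hd hx0 hx hbot hact (g c).2.1 (g c).2.2,
            eq_zero_of_line_outside hν hAP hAp hd hx0 hx hbot hact (g d).2.1 (g d).2.2]))⟩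
        exact ⟨inferInstance, (Finite.card_le_one_iff_subsingleton.mpr hsub).trans Nat.card_pos⟩
    obtain ⟨hkfin, hkle⟩ := hker
    let j : f.range → zSub p P AP Ap (quotRho ρ hF) (C.map (QuotientAddGroup.mk' F)) :=
      fun d => ⟨d.1, hrange d.1 d.2⟩
    have hj : Function.Injective j := fun a b h => Subtype.ext (congrArg (fun z => z.1) h)
    have hrfin : Finite f.range := Finite.of_injective j hj
    have hqfin : Finite (zSub p P AP Ap ρ C ⧸ f.ker) :=
      Finite.of_equiv _ (QuotientAddGroup.quotientKerEquivRange f).symm.toEquiv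
    have hzfin : Finite (zSub p P AP Ap ρ C) :=
      Finite.of_addSubgroup_quotient f.ker
    refine ⟨hzfin, ?_⟩
    let q : C →+ M ⧸ F := (QuotientAddGroup.mk' F).comp C.subtype
    have hCcard : Nat.card (C ⊓ F : AddSubgroup M) * Nat.card (C.map (QuotientAddGroup.mk' F)) =
        Nat.card C := by
      rw [← q.ker.card_mul_index, AddSubgroup.index_ker,
        show q.range = C.map (QuotientAddGroup.mk' F) by
          rw [AddMonoidHom.range_comp, C.range_subtype]]
      congr 1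
      exact Nat.card_congr
        { toFun := fun y => ⟨⟨y.1, y.2.1⟩, (QuotientAddGroup.eq_zero_iff _).mpr y.2.2⟩
          invFun := fun y => ⟨y.1.1, y.1.2, (QuotientAddGroup.eq_zero_iff _).mp y.2⟩
          left_inv := fun y => rfl
          right_inv := fun y => rfl }
    rw [← f.ker.card_mul_index, AddSubgroup.index_ker, ← hCcard]
    exact Nat.mul_le_mul hkle ((Nat.card_le_card_of_injective j hj).trans hle)

end Fermat.Agent.Mazur.Descent
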