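import Fermat.Agent.Mazur.Descent.Level

/-!
# The index of coboundaries among reductions of Selmer cocycles is bounded

A reduced cocycle is seen at a tame generator `t` at `p`, up to the cocycles vanishing there, which
are counted by `natCard_zSub_le`.
-/

noncomputable section

open scoped Pointwise
open Module

namespace Fermat.Agent.Mazur.Descent

local notation "Qbar" => AlgebraicClosure ℚ
local notation "Γℚ" => AlgebraicClosure ℚ ≃ₐ[ℚ] AlgebraicClosure ℚ

variable {p P : ℕ} [Fact P.Prime] {L : Type} [AddCommGroup L] [Module ℤ_[P] L]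
  [Module.Free ℤ_[P] L] [Module.Finite ℤ_[P] L] {ρ : Γℚ →* Module.End ℤ_[P] L} {d : ℕ}
  {AP : ValuationSubring Qbar} {φP : Γℚ} {C : Submodule ℤ_[P] L} {Ap : ValuationSubring Qbar}

variable (p ρ AP C) in
/-- Selmer cocycles on `L`. -/
def selL : AddSubgroup (Γℚ → L) where
  carrier := {c | IsSelmerCocycle p P L ρ AP C c}
  zero_mem' :=
    { cocycle := fun σ τ => by simp
      continuous := fun k => ⟨⊥, inferInstance, fun σ _ => ⟨0, by simp⟩⟩
      unramified := fun _ _ _ _ _ _ _ _ => rfl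
      at_P := fun _ _ => C.zero_mem }
  add_mem' := fun {c e} hc he =>
    { cocycle := fun σ τ => by
        simp only [Pi.add_apply, hc.cocycle σ τ, he.cocycle σ τ, map_add]; abel
      continuous := fun k => by
        obtain ⟨E, hE, hc'⟩ := hc.continuous k
        obtain ⟨F, hF, he'⟩ := he.continuous k
        refine ⟨E ⊔ F, inferInstance, fun σ h => ?_⟩
        obtain ⟨y, hy⟩ := hc' σ fun a ha => h a (le_sup_left (b := F) ha)
        obtain ⟨z, hz⟩ := he' σ fun a ha => h a (le_sup_right (a := E) ha)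
        exact ⟨y + z, by rw [Pi.add_apply, hy, hz, smul_add]⟩
      unramified := fun ℓ h1 h2 h3 A hA σ hσ => by
        rw [Pi.add_apply, hc.unramified ℓ h1 h2 h3 A hA σ hσ, he.unramified ℓ h1 h2 h3 A hA σ hσ,
          add_zero]
      at_P := fun σ hσ => C.add_mem (hc.at_P σ hσ) (he.at_P σ hσ) }
  neg_mem' := fun {c} hc =>
    { cocycle := fun σ τ => by simp only [Pi.neg_apply, hc.cocycle σ τ, map_neg]; abel
      continuous := fun k => by
        obtain ⟨E, hE, hc'⟩ := hc.continuous k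
        refine ⟨E, hE, fun σ h => ?_⟩
        obtain ⟨y, hy⟩ := hc' σ h
        exact ⟨-y, by rw [Pi.neg_apply, hy, smul_neg]⟩
      unramified := fun ℓ h1 h2 h3 A hA σ hσ => by
        rw [Pi.neg_apply, hc.unramified ℓ h1 h2 h3 A hA σ hσ, neg_zero]
      at_P := fun σ hσ => C.neg_mem (hc.at_P σ hσ) }

variable (p ρ AP C) in
/-- Their reductions modulo `P ^ k`. -/
def selK (k : ℕ) : AddSubgroup (Γℚ → Lev P L k) :=
  (selL p ρ AP C).map ((plev P L k).mkQ.toAddMonoidHom.compLeft Γℚ)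

/-- The coboundary map. -/
def cobK (ρ : Γℚ →* Module.End ℤ_[P] L) (k : ℕ) : Lev P L k →+ (Γℚ → Lev P L k) :=
  AddMonoidHom.mk' (fun m σ => rhoK ρ k σ m - m) fun m m' => funext fun σ => by
    simp only [Pi.add_apply, map_add]; abel

variable (hd : DescentData p P L ρ d AP φP C Ap)

omit [Module.Free ℤ_[P] L] [Module.Finite ℤ_[P] L] in
include hd in
theorem cobK_mem_selK (k : ℕ) (m : Lev P L k) : cobK ρ k m ∈ selK p ρ AP C k := by
  obtain ⟨x, rfl⟩ := Submodule.Quotient.mk_surjective _ m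
  exact ⟨_, isSelmerCocycle_coboundary hd x, funext fun σ => map_sub (plev P L k).mkQ (ρ σ x) x⟩

omit [Module.Free ℤ_[P] L] [Module.Finite ℤ_[P] L] in
theorem selK_cocycle {k : ℕ} {c : Γℚ → Lev P L k} (hc : c ∈ selK p ρ AP C k) (σ τ : Γℚ) :
    c (σ * τ) = c σ + rhoK ρ k σ (c τ) := by
  obtain ⟨c₀, hc₀, rfl⟩ := hc
  show (plev P L k).mkQ (c₀ (σ * τ)) = _
  rw [hc₀.cocycle, map_add]
  rfl

omit [Module.Free ℤ_[P] L] [Module.Finite ℤ_[P] L] in
include hd in
theorem selK_cont {k : ℕ} {c : Γℚ → Lev P L k} (hc : c ∈ selK p ρ AP C k) :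
    ∃ E : IntermediateField ℚ Qbar, FiniteDimensional ℚ E ∧
      ∀ σ : Γℚ, (∀ a ∈ E, σ a = a) → c σ = 0 ∧ rhoK ρ k σ = 1 := by
  obtain ⟨c₀, hc₀, rfl⟩ := hc
  obtain ⟨E, hE, h1⟩ := hc₀.continuous k
  obtain ⟨F, hF, h2⟩ := hd.continuous k
  refine ⟨E ⊔ F, inferInstance, fun σ h => ⟨?_, AddMonoidHom.ext fun q => ?_⟩⟩
  · obtain ⟨y, hy⟩ := h1 σ fun a ha => h a (le_sup_left (b := F) ha)
    exact (Submodule.Quotient.mk_eq_zero _).mpr (mem_plev.mpr ⟨y, hy⟩)
  · obtain ⟨x, rfl⟩ := Submodule.Quotient.mk_surjective _ q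
    exact mkQ_eq_iff.mpr (mem_plev.mpr (h2 σ (fun a ha => h a (le_sup_right (a := E) ha)) x))

/-- A choice of tame generator and Frobenius at `p`, as given by `TameInertia`. -/
structure TameGen (p P : ℕ) (Ap : ValuationSubring Qbar) (t φ : Γℚ) : Prop where
  mem : t ∈ Ap.inertiaSubgroupIn ℚ
  frob : Ap.IsFrobeniusAt φ p
  gen : ∀ (H : Type) (_ : Group H) (_ : Finite H) (π : Γℚ →* H),
    (∃ E : IntermediateField ℚ Qbar, FiniteDimensional ℚ E ∧
      ∀ σ : Γℚ, (∀ a ∈ E, σ a = a) → π σ = 1) →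
    IsPGroup P ((Ap.inertiaSubgroupIn ℚ).map π) →
      (∀ σ ∈ Ap.inertiaSubgroupIn ℚ, π σ ∈ Subgroup.zpowers (π t)) ∧ π (φ * t * φ⁻¹) = π t ^ p

variable {t φ : Γℚ} (ht : TameGen p P Ap t φ)

include hd ht in
/-- The affine action of inertia at `p` of a reduced cocycle is generated by `t`, and satisfies the
tame relation. -/
theorem aff_tame {k : ℕ} {c : Γℚ → Lev P L k} (hc : c ∈ selK p ρ AP C k) :
    (∀ σ ∈ Ap.inertiaSubgroupIn ℚ, affHom (rhoK ρ k) c (selK_cocycle hc) σ ∈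
        Subgroup.zpowers (affHom (rhoK ρ k) c (selK_cocycle hc) t)) ∧
      affHom (rhoK ρ k) c (selK_cocycle hc) (φ * t * φ⁻¹) =
        affHom (rhoK ρ k) c (selK_cocycle hc) t ^ p := by
  refine ht.gen (Equiv.Perm (Lev P L k)) inferInstance inferInstance _ ?_ ?_
  · obtain ⟨E, hE, h⟩ := selK_cont hd hc
    refine ⟨E, hE, fun σ hσ => Equiv.ext fun x => ?_⟩
    rw [affHom_apply, (h σ hσ).1, (h σ hσ).2, add_zero]
    rfl
  · rintro ⟨_, σ, hσ, rfl⟩
    obtain ⟨K, hK⟩ := hd.unipotent_p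
    have hu : (rhoK ρ k σ - 1) ^ K = 0 := by
      have h1 : ∀ (i : ℕ) (z : L), ((rhoK ρ k σ - 1) ^ i) ((plev P L k).mkQ z) =
          (plev P L k).mkQ (((ρ σ - 1) ^ i) z) := by
        intro i
        induction i with
        | zero => exact fun z => rfl
        | succ i ih =>
          intro z
          rw [pow_succ, pow_succ, Module.End.mul_apply]
          show ((rhoK ρ k σ - 1) ^ i) (rhoK ρ k σ ((plev P L k).mkQ z) - (plev P L k).mkQ z) = _
          rw [rhoK_mk, ← map_sub, ih]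
          rfl
      refine AddMonoidHom.ext fun q => ?_
      obtain ⟨x, rfl⟩ := Submodule.Quotient.mk_surjective _ q
      show ((rhoK ρ k σ - 1) ^ K) ((plev P L k).mkQ x) = 0
      rw [h1, hK σ hσ]
      exact map_zero _
    obtain ⟨n, hn⟩ := exists_pow_affHom_eq_one (nsmul_lev k) (rhoK ρ k) c (selK_cocycle hc) σ hu
    exact ⟨n, Subtype.ext (by rw [SubgroupClass.coe_pow]; exact hn)⟩

include hd ht in
/-- A reduced cocycle vanishing at `t` vanishes on inertia at `p`. -/
theorem vanish_inertia {k : ℕ} {c : Γℚ → Lev P L k} (hc : c ∈ selK p ρ AP C k) (h0 : c t = 0) :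
    ∀ σ ∈ Ap.inertiaSubgroupIn ℚ, c σ = 0 := by
  intro σ hσ
  obtain ⟨i, hi : affHom (rhoK ρ k) c (selK_cocycle hc) t ^ i = _⟩ := (aff_tame hd ht hc).1 σ hσ
  have hfix : affHom (rhoK ρ k) c (selK_cocycle hc) t 0 = 0 := by
    rw [affHom_apply, map_zero, zero_add, h0]
  have hmem : (affHom (rhoK ρ k) c (selK_cocycle hc) t) ^ i ∈
      MulAction.stabilizer (Equiv.Perm (Lev P L k)) (0 : Lev P L k) :=
    zpow_mem (MulAction.mem_stabilizer_iff.mpr hfix) i
  rw [hi, MulAction.mem_stabilizer_iff, Equiv.Perm.smul_def, affHom_apply, map_zero,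
      zero_add] at hmem
  exact hmem

include hd ht in
/-- Fixed vectors of `t` are fixed by inertia at `p`. -/
theorem fix_inertia {x : L} (hx : ρ t x = x) {σ : Γℚ} (hσ : σ ∈ Ap.inertiaSubgroupIn ℚ) :
    ρ σ x = x := by
  refine sub_eq_zero.mp (eq_zero_of_forall_plev (P := P) fun k => ?_)
  have hc : (0 : Γℚ → Lev P L k) ∈ selK p ρ AP C k := zero_mem _
  obtain ⟨i, hi : affHom (rhoK ρ k) 0 (selK_cocycle hc) t ^ i = _⟩ := (aff_tame hd ht hc).1 σ hσ
  have hmem : (affHom (rhoK ρ k) 0 (selK_cocycle hc) t) ^ i ∈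
      MulAction.stabilizer (Equiv.Perm (Lev P L k)) ((plev P L k).mkQ x) :=
    zpow_mem (MulAction.mem_stabilizer_iff.mpr (by
      rw [Equiv.Perm.smul_def, affHom_apply, rhoK_mk, hx]
      exact add_zero _)) i
  rw [hi, MulAction.mem_stabilizer_iff, Equiv.Perm.smul_def, affHom_apply, rhoK_mk] at hmem
  rw [← mkQ_eq_iff]
  rw [Pi.zero_apply, add_zero] at hmem
  exact hmem

/-- The image of `t - 1` modulo `P ^ k`. -/
def rangeT (ρ : Γℚ →* Module.End ℤ_[P] L) (t : Γℚ) (k : ℕ) : AddSubgroup (Lev P L k) :=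
  (rhoK ρ k t - 1 : AddMonoid.End (Lev P L k)).range

omit [Module.Free ℤ_[P] L] [Module.Finite ℤ_[P] L] in
theorem mem_rangeT {k : ℕ} {y : Lev P L k} :
    y ∈ rangeT ρ t k ↔ ∃ x, rhoK ρ k t x - x = y := Iff.rfl

include hd ht in
/-- The value of a reduced cocycle at `t` is killed by `φ - p` modulo the image of `t - 1`. -/
theorem frobenius_sub_mem_rangeT {k : ℕ} {c : Γℚ → Lev P L k} (hc : c ∈ selK p ρ AP C k) :
    rhoK ρ k φ (c t) - p • c t ∈ rangeT ρ t k := by
  have hpow := congrArg (fun e : Equiv.Perm (Lev P L k) => e 0) (aff_tame hd ht hc).2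
  set T := affHom (rhoK ρ k) c (selK_cocycle hc) t with hT
  have hstep : ∀ j : ℕ, (T ^ j) 0 - j • c t ∈ rangeT ρ t k := by
    intro j
    induction j with
    | zero => simp
    | succ j ih =>
      have e : (T ^ (j + 1)) 0 - (j + 1) • c t =
          (rhoK ρ k t ((T ^ j) 0) - (T ^ j) 0) + ((T ^ j) 0 - j • c t) := by
        rw [pow_succ', Equiv.Perm.mul_apply, hT, affHom_apply, succ_nsmul]
        abel
      rw [e]
      exact add_mem (mem_rangeT.mpr ⟨_, rfl⟩) ih
  have hcc := selK_cocycle hc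
  have h1 : c (φ * t * φ⁻¹) = rhoK ρ k φ (c t) - (rhoK ρ k (φ * t * φ⁻¹) (c φ) - c φ) := by
    have h2 := hcc (φ * t * φ⁻¹) φ
    rw [show φ * t * φ⁻¹ * φ = φ * t by group, hcc φ t] at h2
    rw [eq_sub_iff_add_eq, ← add_left_inj (c φ)]
    rw [show c (φ * t * φ⁻¹) + (rhoK ρ k (φ * t * φ⁻¹) (c φ) - c φ) + c φ =
      c (φ * t * φ⁻¹) + rhoK ρ k (φ * t * φ⁻¹) (c φ) by abel, ← h2, add_comm]
  have h3 : rhoK ρ k (φ * t * φ⁻¹) (c φ) - c φ ∈ rangeT ρ t k := by
    have h4 := congrArg (fun e : Equiv.Perm (Lev P L k) => e (c φ))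
      (aff_tame hd ht (zero_mem (selK p ρ AP C k))).2
    set T₀ := affHom (rhoK ρ k) 0 (selK_cocycle (zero_mem (selK p ρ AP C k))) t with hT₀
    have h5 : ∀ j : ℕ, (T₀ ^ j) (c φ) - c φ ∈ rangeT ρ t k := by
      intro j
      induction j with
      | zero => simp
      | succ j ih =>
        have e : (T₀ ^ (j + 1)) (c φ) - c φ =
            (rhoK ρ k t ((T₀ ^ j) (c φ)) - (T₀ ^ j) (c φ)) + ((T₀ ^ j) (c φ) - c φ) := by
          rw [pow_succ', Equiv.Perm.mul_apply, hT₀, affHom_apply, Pi.zero_apply]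
          abel
        rw [e]
        exact add_mem (mem_rangeT.mpr ⟨_, rfl⟩) ih
    rw [affHom_apply, Pi.zero_apply, add_zero] at h4
    rw [h4]
    exact h5 p
  rw [affHom_apply, map_zero, zero_add, h1] at hpow
  have h6 := add_mem (hstep p) h3
  rw [← hpow] at h6
  convert h6 using 1
  abel

include hd in
/-- A reduced Selmer cocycle vanishing at `t` is one of the counted cocycles. -/
theorem mem_zSub_of_selK (ht : TameGen p P Ap t φ) {k : ℕ} {c : Γℚ → Lev P L k}
    (hc : c ∈ selK p ρ AP C k) (h0 : c t = 0) :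
    c ∈ zSub p P AP Ap (rhoK ρ k) (levC C k) := by
  obtain ⟨E, hE, hcont⟩ := selK_cont hd hc
  have hcc := selK_cocycle hc
  have hv := vanish_inertia hd ht hc h0
  obtain ⟨c₀, hc₀, rfl⟩ := hc
  exact
    { cocycle := hcc
      cont := ⟨E, hE, fun σ h => (hcont σ h).1⟩
      unramified := fun ℓ h1 h2 h3 A hA σ hσ => by
        show (plev P L k).mkQ (c₀ σ) = 0
        rw [hc₀.unramified ℓ h1 h2 h3 A hA σ hσ, map_zero]
      at_p := hv
      at_P := fun σ hσ => ⟨c₀ σ, hc₀.at_P σ hσ, rfl⟩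
      unit := unitType_reduction hd hc₀ k }

include hd ht in
/-- The index of coboundaries, against the sizes of `W_k`, `C_k` and the invariants. -/
theorem relIndex_bound {k : ℕ} (hk : 0 < k)
    (Wk : AddSubgroup (Lev P L k))
    (hW : ∀ x : Lev P L k, x ∈ Wk ↔ rhoK ρ k φ x - p • x ∈ rangeT ρ t k)
    (G : AddSubgroup (Lev P L k)) (hG : ∀ x : Lev P L k, x ∈ G ↔ ∀ σ, rhoK ρ k σ x = x) :
    (cobK ρ k).range.relIndex (selK p ρ AP C k) ≠ 0 ∧
      (cobK ρ k).range.relIndex (selK p ρ AP C k) * Nat.card (Lev P L k) ≤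
        Nat.card (levC C k) * Nat.card G * Nat.card Wk := by
  set S := selK p ρ AP C k with hS
  set B := (cobK ρ k).range with hB
  set R := rangeT ρ t k with hR
  have hBS : B ≤ S := by rintro _ ⟨m, rfl⟩; exact cobK_mem_selK hd k m
  obtain ⟨hzfin, hzle⟩ := natCard_zSub_le (isCycloExp_nuK (P := P) hk) hd.over_P hd.over_p
      (countData hd k)
  let Z' := zSub p P AP Ap (rhoK ρ k) (levC C k) ⊓ S
  have hZ'fin : Finite Z' := Finite.of_injective (AddSubgroup.inclusion inf_le_left)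
    (AddSubgroup.inclusion_injective inf_le_left)
  have hZ'le : Nat.card Z' ≤ Nat.card (levC C k) :=
    (Nat.card_le_card_of_injective (AddSubgroup.inclusion inf_le_left)
      (AddSubgroup.inclusion_injective inf_le_left)).trans hzle
  let T := B ⊔ Z'
  have hTS : T ≤ S := sup_le hBS inf_le_right
  have hBT : B ≤ T := le_sup_left
  -- the part seen at `t`
  let θ : S →+ (Lev P L k ⧸ R) :=
    (QuotientAddGroup.mk' R).comp ((Pi.evalAddMonoidHom (fun _ => Lev P L k) t).comp S.subtype)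
  have hker : θ.ker ≤ T.addSubgroupOf S := by
    rintro ⟨c, hc⟩ hθ
    obtain ⟨m, hm⟩ := mem_rangeT.mp ((QuotientAddGroup.eq_zero_iff _).mp hθ)
    have h1 : c - cobK ρ k m ∈ S := sub_mem hc (cobK_mem_selK hd k m)
    have h2 : (c - cobK ρ k m) t = 0 := by
      show c t - (rhoK ρ k t m - m) = 0
      rw [hm]; exact sub_self _
    show c ∈ T
    rw [← add_sub_cancel (cobK ρ k m) c]
    exact add_mem (AddSubgroup.mem_sup_left ⟨m, rfl⟩)
      (AddSubgroup.mem_sup_right ⟨mem_zSub_of_selK hd ht h1 h2, h1⟩)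
  have hj : T.relIndex S ≠ 0 ∧ T.relIndex S ≤ Nat.card θ.range := by
    have h0 : θ.ker.index = Nat.card θ.range := AddSubgroup.index_ker θ
    have hne : θ.ker.index ≠ 0 := by rw [h0]; exact Nat.card_pos.ne'
    have hdvd := AddSubgroup.index_dvd_of_le hker
    exact ⟨fun h => hne (Nat.eq_zero_of_zero_dvd (h ▸ hdvd)),
      h0 ▸ Nat.le_of_dvd (Nat.pos_of_ne_zero hne) hdvd⟩
  -- the range of `θ` against `W_k`
  have hRW : R ≤ Wk := by
    rintro _ ⟨m, rfl⟩
    rw [hW]
    have h1 := frobenius_sub_mem_rangeT hd ht (cobK_mem_selK hd k m)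
    exact h1
  have hθW : Nat.card θ.range * Nat.card R ≤ Nat.card Wk := by
    let q : Wk →+ (Lev P L k ⧸ R) := (QuotientAddGroup.mk' R).comp Wk.subtype
    have hle : θ.range ≤ q.range := by
      rintro _ ⟨⟨c, hc⟩, rfl⟩
      exact ⟨⟨c t, (hW _).mpr (frobenius_sub_mem_rangeT hd ht hc)⟩, rfl⟩
    have h1 : Nat.card θ.range ≤ Nat.card q.range :=
      Nat.card_le_card_of_injective _ (AddSubgroup.inclusion_injective hle)
    have h2 : Nat.card q.ker = Nat.card R := Nat.card_congr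
      { toFun := fun y => ⟨y.1.1, (QuotientAddGroup.eq_zero_iff _).mp y.2⟩
        invFun := fun y => ⟨⟨y.1, hRW y.2⟩, (QuotientAddGroup.eq_zero_iff _).mpr y.2⟩
        left_inv := fun y => rfl
        right_inv := fun y => rfl }
    rw [← q.ker.card_mul_index, AddSubgroup.index_ker, h2, mul_comm]
    exact Nat.mul_le_mul_left _ h1
  -- the part killed at `t`
  have hi : B.relIndex T = B.relIndex Z' := by
    rw [show T = Z' ⊔ B from sup_comm _ _]
    exact AddSubgroup.relIndex_sup_right _ _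
  let K₁ := (rhoK ρ k t - 1 : AddMonoid.End (Lev P L k)).ker
  have hK₁ : ∀ m : K₁, cobK ρ k m ∈ B ⊓ Z' := fun m =>
    ⟨⟨m, rfl⟩, mem_zSub_of_selK hd ht (cobK_mem_selK hd k m) m.2, cobK_mem_selK hd k m⟩
  have hBZ : Finite (B ⊓ Z' : AddSubgroup _) := Finite.of_injective
    (AddSubgroup.inclusion inf_le_right) (AddSubgroup.inclusion_injective inf_le_right)
  have hK₁le : Nat.card K₁ ≤ Nat.card G * Nat.card (B ⊓ Z' : AddSubgroup _) := by
    let dK : K₁ →+ (B ⊓ Z' : AddSubgroup _) :=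
      ((cobK ρ k).comp K₁.subtype).codRestrict _ hK₁
    rw [← dK.ker.card_mul_index, AddSubgroup.index_ker]
    refine Nat.mul_le_mul (Nat.card_le_card_of_injective
      (fun m => (⟨m.1.1, (hG _).mpr fun σ => ?_⟩ : G)) fun a b h => ?_)
      (Nat.card_le_card_of_injective _ Subtype.val_injective)
    · have h0 := congrFun (congrArg Subtype.val m.2) σ
      exact sub_eq_zero.mp h0
    · exact Subtype.ext (Subtype.ext (congrArg (fun z : G => z.1) h))
  have hiz : B.relIndex Z' * Nat.card (B ⊓ Z' : AddSubgroup _) = Nat.card Z' := by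
    rw [← (B.addSubgroupOf Z').card_mul_index, mul_comm]
    congr 1
    exact Nat.card_congr
      { toFun := fun y => ⟨⟨y.1, y.2.2⟩, y.2.1⟩
        invFun := fun y => ⟨y.1.1, y.2, y.1.2⟩
        left_inv := fun y => rfl
        right_inv := fun y => rfl }
  have hM : Nat.card K₁ * Nat.card R = Nat.card (Lev P L k) := by
    rw [← K₁.card_mul_index]
    congr 1
    exact (AddSubgroup.index_ker _).symm
  rw [← AddSubgroup.relIndex_mul_relIndex B T S hBT hTS, hi]
  refine ⟨mul_ne_zero (fun h => ?_) hj.1, ?_⟩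
  · rw [h, zero_mul] at hiz
    exact (Nat.card_pos (α := Z')).ne hiz
  calc B.relIndex Z' * T.relIndex S * Nat.card (Lev P L k)
      = B.relIndex Z' * T.relIndex S * (Nat.card K₁ * Nat.card R) := by rw [hM]
    _ ≤ B.relIndex Z' * Nat.card θ.range *
          ((Nat.card G * Nat.card (B ⊓ Z' : AddSubgroup _)) * Nat.card R) := by
        gcongr; exact hj.2
    _ = (B.relIndex Z' * Nat.card (B ⊓ Z' : AddSubgroup _)) * Nat.card G *
          (Nat.card θ.range * Nat.card R) := by ring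
    _ ≤ Nat.card (levC C k) * Nat.card G * Nat.card Wk := by
        rw [hiz]; gcongr

end Fermat.Agent.Mazur.Descent
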