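import Mathlib.Algebra.Category.Grp.Injective
import Mathlib.NumberTheory.Padics.ProperSpace
import Fermat.Agent.Gal.FiniteLevel
import Fermat.Agent.Mazur.Interface

/-!
# Roots of unity, Kummer theory at finite level, homomorphisms to `ℚ̄ˣ`
-/

noncomputable section

open IntermediateField

namespace Fermat.Agent.Mazur.Descent

local notation "Qbar" => AlgebraicClosure ℚ
local notation "Γℚ" => AlgebraicClosure ℚ ≃ₐ[ℚ] AlgebraicClosure ℚ

/-! ### A compatible system of roots of unity -/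

section Roots

variable (P : ℕ) [Fact P.Prime]

instance hasEnoughRootsOfUnity_qbar (i : ℕ) : HasEnoughRootsOfUnity Qbar (P ^ i) :=
  have : NeZero ((P ^ i : ℕ) : Qbar) :=
    ⟨by exact_mod_cast pow_ne_zero i (Fact.out : P.Prime).ne_zero⟩
  inferInstance

theorem exists_zetaSys : ∃ ζ : ℕ → Qbar, (∀ k, IsPrimitiveRoot (ζ k) (P ^ k)) ∧
    ∀ k, ζ (k + 1) ^ P = ζ k := by
  have hP : P.Prime := Fact.out
  obtain ⟨z, hz⟩ := HasEnoughRootsOfUnity.exists_primitiveRoot Qbar (P ^ 1)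
  choose root hroot using fun x : Qbar => IsAlgClosed.exists_pow_nat_eq x hP.pos
  let ζ : ℕ → Qbar := fun k => Nat.recOn k 1 fun i y => if i = 0 then z else root y
  have h0 : ζ 0 = 1 := rfl
  have h1 : ζ 1 = z := rfl
  have hs : ∀ i, ζ (i + 2) = root (ζ (i + 1)) := fun i => rfl
  have hprim : ∀ k, IsPrimitiveRoot (ζ (k + 1)) (P ^ (k + 1)) := by
    intro k
    induction k with
    | zero => simpa [h1] using hz
    | succ k ih =>
      rw [IsPrimitiveRoot.iff_orderOf]
      refine orderOf_eq_prime_pow ?_ ?_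
      · rw [hs, pow_succ', pow_mul, hroot]
        exact fun h => (Nat.pow_lt_pow_right hP.one_lt (Nat.lt_succ_self k)).not_ge
          (Nat.le_of_dvd (pow_pos hP.pos k) (ih.dvd_of_pow_eq_one _ h))
      · rw [hs, pow_succ', pow_mul, hroot]
        exact ih.pow_eq_one
  refine ⟨ζ, fun k => ?_, fun k => ?_⟩
  · cases k with
    | zero => rw [h0, pow_zero]; exact IsPrimitiveRoot.one
    | succ k => exact hprim k
  · cases k with
    | zero =>
      change ζ 1 ^ P = ζ 0
      rw [h0, h1]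
      simpa using hz.pow_eq_one
    | succ k => rw [hs, hroot]

/-- `zeta P k` is a primitive `P ^ k`-th root of unity; these are compatible. -/
def zeta : ℕ → Qbar := Classical.choose (exists_zetaSys P)

theorem zeta_prim (k : ℕ) : IsPrimitiveRoot (zeta P k) (P ^ k) :=
  (Classical.choose_spec (exists_zetaSys P)).1 k

theorem zeta_succ_pow (k : ℕ) : zeta P (k + 1) ^ P = zeta P k :=
  (Classical.choose_spec (exists_zetaSys P)).2 k

theorem zeta_ne_zero (k : ℕ) : zeta P k ≠ 0 :=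
  (zeta_prim P k).ne_zero (pow_ne_zero k (Fact.out : P.Prime).ne_zero)

variable {P}

/-- `ζ_{P^k} ^ x` for a `P`-adic integer `x`. -/
def epow (k : ℕ) (x : ℤ_[P]) : Qbar := zeta P k ^ (PadicInt.toZModPow k x).val

instance neZero_pow (k : ℕ) : NeZero (P ^ k) := ⟨pow_ne_zero k (Fact.out : P.Prime).ne_zero⟩

theorem epow_eq (k : ℕ) {x : ℤ_[P]} {n : ℕ} (h : PadicInt.toZModPow k x = n) :
    epow k x = zeta P k ^ n := by
  rw [epow, h, ZMod.val_natCast]
  exact (pow_eq_pow_mod n (zeta_prim P k).pow_eq_one).symm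

theorem epow_natCast (k n : ℕ) : epow k (n : ℤ_[P]) = zeta P k ^ n :=
  epow_eq k (map_natCast _ n)

@[simp]
theorem epow_zero (k : ℕ) : epow k (0 : ℤ_[P]) = 1 := by
  rw [← Nat.cast_zero, epow_natCast, pow_zero]

theorem epow_add (k : ℕ) (x y : ℤ_[P]) : epow k (x + y) = epow k x * epow k y := by
  simp only [epow, ← pow_add]
  exact epow_eq k (by simp)

theorem epow_mul (k : ℕ) (r x : ℤ_[P]) :
    epow k (r * x) = epow k x ^ (PadicInt.toZModPow k r).val := by
  simp only [epow, ← pow_mul, mul_comm (PadicInt.toZModPow k x).val]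
  exact epow_eq k (by simp)

theorem epow_ne_zero (k : ℕ) (x : ℤ_[P]) : epow k x ≠ 0 := pow_ne_zero _ (zeta_ne_zero P k)

theorem epow_succ_pow (k : ℕ) (x : ℤ_[P]) : epow (k + 1) x ^ P = epow k x := by
  rw [epow, ← pow_mul, mul_comm, pow_mul, zeta_succ_pow]
  refine (epow_eq k ?_).symm
  rw [← PadicInt.cast_toZModPow k (k + 1) (Nat.le_succ k) x, ZMod.natCast_val]

theorem epow_pow_pow (k : ℕ) (x : ℤ_[P]) : epow k x ^ P ^ k = 1 := by
  rw [epow, ← pow_mul, mul_comm, pow_mul, (zeta_prim P k).pow_eq_one, one_pow]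

theorem epow_eq_one_iff (k : ℕ) (x : ℤ_[P]) :
    epow k x = 1 ↔ x ∈ Ideal.span {(P : ℤ_[P]) ^ k} := by
  rw [← PadicInt.ker_toZModPow, RingHom.mem_ker, epow, (zeta_prim P k).pow_eq_one_iff_dvd,
    ← ZMod.val_eq_zero]
  exact ⟨fun h => Nat.eq_zero_of_dvd_of_lt h (ZMod.val_lt _), fun h => h ▸ dvd_zero _⟩

theorem smul_epow (σ : Γℚ) (k : ℕ) (x : ℤ_[P]) :
    σ (epow k x) = epow k ((chi P σ : ℤ_[P]) * x) := by
  rw [epow_mul]
  exact cyclotomicCharacter.spec P σ.toRingEquiv (epow k x) (epow_pow_pow k x)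

theorem smul_zeta (σ : Γℚ) (k : ℕ) :
    σ (zeta P k) = zeta P k ^ (PadicInt.toZModPow k (chi P σ : ℤ_[P])).val :=
  cyclotomicCharacter.spec P σ.toRingEquiv _ (zeta_prim P k).pow_eq_one

end Roots

/-! ### Hilbert 90 at finite level -/

/-- Kummer theory: a cocycle with values in `ℚ̄ˣ` of finite level is a coboundary. -/
theorem exists_kummer (H : Subgroup Γℚ) (f : Γℚ → Qbar) (hf0 : ∀ σ ∈ H, f σ ≠ 0)
    (hf : ∀ σ ∈ H, ∀ τ ∈ H, f (σ * τ) = f σ * σ (f τ))
    (hcont : ∃ E : IntermediateField ℚ Qbar, FiniteDimensional ℚ E ∧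
      ∀ σ ∈ H, (∀ a ∈ E, σ a = a) → f σ = 1) :
    ∃ α : Qbar, α ≠ 0 ∧ ∀ σ ∈ H, σ α = f σ * α := by
  classical
  obtain ⟨E, hE, hcont⟩ := hcont
  let N := IntermediateField.normalClosure ℚ E Qbar
  have : Normal ℚ N := normalClosure.normal ℚ E Qbar
  let r : Γℚ →* (N ≃ₐ[ℚ] N) := AlgEquiv.restrictNormalHom N
  have hr : ∀ (σ : Γℚ) (x : N), ((r σ x : N) : Qbar) = σ (x : Qbar) :=
    fun σ x => AlgEquiv.restrictNormal_commutes σ N x
  have hcongr : ∀ σ ∈ H, ∀ τ ∈ H, r σ = r τ → f σ = f τ := by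
    intro σ hσ τ hτ h
    have hfix : ∀ a ∈ E, (σ⁻¹ * τ) a = a := fun a ha => by
      have h1 := hr σ ⟨a, E.le_normalClosure ha⟩
      rw [h, hr] at h1
      rw [AlgEquiv.mul_apply, h1]
      exact σ.symm_apply_apply a
    have h2 := hf σ hσ (σ⁻¹ * τ) (mul_mem (inv_mem hσ) hτ)
    rw [mul_inv_cancel_left, hcont _ (mul_mem (inv_mem hσ) hτ) hfix, map_one, mul_one] at h2
    exact h2.symm
  let S := H.map r
  have : Finite S := inferInstance
  have : Fintype S := Fintype.ofFinite S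
  choose s hsH hs using fun g : S => Subgroup.mem_map.mp g.2
  let ch : S → (N →* Qbar) := fun g =>
    (((s g : Γℚ).toAlgHom.comp N.val : N →ₐ[ℚ] Qbar) : N →* Qbar)
  have hch : Function.Injective ch := fun g g' h => by
    refine Subtype.ext (AlgEquiv.ext fun x => Subtype.ext ?_)
    rw [← hs g, ← hs g', hr, hr]
    exact DFunLike.congr_fun h x
  obtain ⟨x, hx⟩ : ∃ x : N, ∑ g : S, f (s g) * s g (x : Qbar) ≠ 0 := by
    by_contra! h
    have hli := (linearIndependent_monoidHom N Qbar).comp ch hch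
    have h0 := Fintype.linearIndependent_iff.mp hli (fun g => f (s g)) (funext fun x => by
      rw [Finset.sum_apply]
      exact h x) 1
    exact hf0 _ (hsH 1) h0
  set β := ∑ g : S, f (s g) * s g (x : Qbar) with hβ
  have key : ∀ σ ∈ H, f σ * σ β = β := by
    intro σ hσ
    let σ' : S := ⟨r σ, Subgroup.mem_map_of_mem r hσ⟩
    conv_rhs => rw [hβ, ← Equiv.sum_comp (Equiv.mulLeft σ')]
    rw [hβ, map_sum, Finset.mul_sum]
    refine Finset.sum_congr rfl fun g _ => ?_
    have e : r (s (σ' * g)) = r (σ * s g) := by rw [hs, map_mul, hs]; rfl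
    rw [Equiv.coe_mulLeft, hcongr _ (hsH _) _ (mul_mem hσ (hsH g)) e, hf σ hσ _ (hsH g),
      map_mul, ← mul_assoc, ← hr (s (σ' * g)), e, hr, AlgEquiv.mul_apply]
  refine ⟨β⁻¹, inv_ne_zero hx, fun σ hσ => ?_⟩
  have h := key σ hσ
  have hne : σ β ≠ 0 := by simpa using hx
  rw [map_inv₀]
  field_simp
  linear_combination -h

/-! ### Extending homomorphisms to `ℚ̄ˣ` -/

instance divisibleBy_units_qbar : DivisibleBy (Additive Qbarˣ) ℤ :=
  divisibleByOfSMulRightSurj _ _ fun {n} hn x => by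
    obtain ⟨z, hz⟩ := IsAlgClosed.exists_pow_nat_eq ((Additive.toMul x : Qbarˣ) : Qbar)
      (Int.natAbs_pos.mpr hn)
    have hz0 : z ≠ 0 := fun h => (Additive.toMul x : Qbarˣ).ne_zero
      (by rw [← hz, h, zero_pow (Int.natAbs_ne_zero.mpr hn)])
    have hu : (Units.mk0 z hz0) ^ n.natAbs = Additive.toMul x := Units.ext (by simpa using hz)
    refine ⟨n.sign • Additive.ofMul (Units.mk0 z hz0), ?_⟩
    change n • n.sign • Additive.ofMul (Units.mk0 z hz0) = x
    rw [smul_smul, mul_comm, Int.sign_mul_self_eq_natAbs, natCast_zsmul, ← ofMul_pow, hu]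
    exact ofMul_toMul x

theorem exists_extend {M : Type} [AddCommGroup M] (F : AddSubgroup M)
    (ψ : F →+ Additive Qbarˣ) : ∃ ψ' : M →+ Additive Qbarˣ, ∀ x : F, ψ' x = ψ x := by
  obtain ⟨h, hh⟩ := (Module.Baer.of_divisible (Additive Qbarˣ)).extension_property_addMonoidHom
    F.subtype F.subtype_injective ψ
  exact ⟨h, fun x => DFunLike.congr_fun hh x⟩

end Fermat.Agent.Mazur.Descent
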