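import Mathlib.LinearAlgebra.Dimension.StrongRankCondition
import Mathlib.LinearAlgebra.FreeModule.PID
import Mathlib.NumberTheory.Padics.RingHoms
import Mathlib.RingTheory.Filtration
import Mathlib.RingTheory.LocalRing.Basic

/-!
# Counting in quotients of a `P`-adic lattice

The orders of `L / P^k` and of the images of submodules in it, and an Artin-Rees estimate.
-/

noncomputable section

open Module

namespace Fermat.Agent.Mazur.Descent

variable {P : ℕ} [Fact P.Prime] {L : Type} [AddCommGroup L] [Module ℤ_[P] L]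

variable (P L) in
/-- `P ^ k L`. -/
def plev (k : ℕ) : Submodule ℤ_[P] L :=
  LinearMap.range (((P : ℤ_[P]) ^ k) • (LinearMap.id : L →ₗ[ℤ_[P]] L))

theorem mem_plev {k : ℕ} {x : L} : x ∈ plev P L k ↔ ∃ y : L, x = (P : ℤ_[P]) ^ k • y := by
  simp [plev, eq_comm]

theorem smul_mem_plev {k : ℕ} {r : ℤ_[P]} (h : r ∈ Ideal.span {(P : ℤ_[P]) ^ k}) (x : L) :
    r • x ∈ plev P L k := by
  obtain ⟨s, rfl⟩ := Ideal.mem_span_singleton'.mp h
  exact mem_plev.mpr ⟨s • x, by rw [smul_smul, mul_comm]⟩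

theorem plev_anti {i k : ℕ} (h : i ≤ k) : plev P L k ≤ (plev P L i : Submodule ℤ_[P] L) := by
  intro x hx
  obtain ⟨y, rfl⟩ := mem_plev.mp hx
  obtain ⟨e, rfl⟩ := Nat.le.dest h
  exact mem_plev.mpr ⟨(P : ℤ_[P]) ^ e • y, by rw [smul_smul, ← pow_add]⟩

theorem pow_nsmul_mem_plev (k : ℕ) (x : L) : P ^ k • x ∈ (plev P L k : Submodule ℤ_[P] L) :=
  mem_plev.mpr ⟨x, by rw [← Nat.cast_pow, Nat.cast_smul_eq_nsmul]⟩

variable [Module.Free ℤ_[P] L] [Module.Finite ℤ_[P] L]

omit [Module.Finite ℤ_[P] L] in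
theorem eq_zero_of_forall_plev {x : L} (h : ∀ k, x ∈ (plev P L k : Submodule ℤ_[P] L)) : x = 0 := by
  let b := Free.chooseBasis ℤ_[P] L
  refine b.repr.map_eq_zero_iff.mp (Finsupp.ext fun i => ?_)
  refine PadicInt.ext_of_toZModPow.mp fun k => ?_
  obtain ⟨y, hy⟩ := mem_plev.mp (h k)
  rw [hy, map_smul, Finsupp.smul_apply, smul_eq_mul, map_mul, Finsupp.zero_apply, map_zero,
    map_pow, map_natCast, ← Nat.cast_pow, ZMod.natCast_self, zero_mul]

variable (P L) in
theorem card_level (k : ℕ) :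
    Finite (L ⧸ (plev P L k : Submodule ℤ_[P] L)) ∧
      Nat.card (L ⧸ (plev P L k : Submodule ℤ_[P] L)) = P ^ (k * finrank ℤ_[P] L) := by
  have : NeZero (P ^ k) := ⟨pow_ne_zero k (Fact.out : P.Prime).ne_zero⟩
  let b := finBasis ℤ_[P] L
  let f : L →+ (Fin (finrank ℤ_[P] L) → ZMod (P ^ k)) :=
    { toFun := fun x i => PadicInt.toZModPow k (b.repr x i)
      map_zero' := funext fun i => by simp
      map_add' := fun x y => funext fun i => by simp }
  have hsurj : Function.Surjective f := fun z => by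
    refine ⟨∑ i, ((z i).val : ℤ_[P]) • b i, funext fun i => ?_⟩
    show PadicInt.toZModPow k (b.repr _ i) = z i
    rw [Basis.repr_sum_self, map_natCast, ZMod.natCast_zmod_val]
  have hker : f.ker = (plev P L k : Submodule ℤ_[P] L).toAddSubgroup := by
    ext x
    simp only [AddMonoidHom.mem_ker, Submodule.mem_toAddSubgroup]
    constructor
    · intro h
      have hi : ∀ i, b.repr x i ∈ Ideal.span {(P : ℤ_[P]) ^ k} := fun i => by
        rw [← PadicInt.ker_toZModPow, RingHom.mem_ker]; exact congrFun h i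
      rw [← b.sum_repr x]
      exact Submodule.sum_mem _ fun i _ => smul_mem_plev (hi i) _
    · intro h
      obtain ⟨y, rfl⟩ := mem_plev.mp h
      funext i
      show PadicInt.toZModPow k (b.repr _ i) = 0
      rw [map_smul, Finsupp.smul_apply, smul_eq_mul, map_mul, map_pow, map_natCast, ← Nat.cast_pow,
        ZMod.natCast_self, zero_mul]
  let e : L ⧸ (plev P L k : Submodule ℤ_[P] L) ≃ (Fin (finrank ℤ_[P] L) → ZMod (P ^ k)) :=
    ((QuotientAddGroup.quotientAddEquivOfEq hker.symm).trans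
      (QuotientAddGroup.quotientKerEquivOfSurjective f hsurj)).toEquiv
  refine ⟨Finite.of_equiv _ e.symm, ?_⟩
  rw [Nat.card_congr e, Nat.card_fun, Nat.card_zmod, Nat.card_fin, ← pow_mul]

instance finite_level (k : ℕ) : Finite (L ⧸ (plev P L k : Submodule ℤ_[P] L)) :=
    (card_level P L k).1

/-- The image of a submodule `N` modulo `P ^ k`. -/
theorem card_map_le (N : Submodule ℤ_[P] L) (k : ℕ) :
    Nat.card (N.map (plev P L k).mkQ) ≤ P ^ (k * finrank ℤ_[P] N) := by
  have : Free ℤ_[P] N := Module.free_of_finite_type_torsion_free'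
  rw [← (card_level P N k).2]
  let g : N ⧸ (plev P N k : Submodule ℤ_[P] N) → N.map (plev P L k).mkQ :=
    fun y => ⟨Submodule.liftQ _ ((plev P L k).mkQ.comp N.subtype) (fun z hz => by
        obtain ⟨w, rfl⟩ := mem_plev.mp hz
        rw [LinearMap.mem_ker, LinearMap.comp_apply, Submodule.mkQ_apply,
          Submodule.Quotient.mk_eq_zero, map_smul]
        exact mem_plev.mpr ⟨_, rfl⟩) y, by
      obtain ⟨z, rfl⟩ := Submodule.Quotient.mk_surjective _ y
      exact ⟨z, z.2, rfl⟩⟩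
  refine Nat.card_le_card_of_surjective g fun y => ?_
  obtain ⟨_, z, hz, rfl⟩ := y
  exact ⟨Submodule.Quotient.mk ⟨z, hz⟩, rfl⟩

theorem card_map_eq (N : Submodule ℤ_[P] L) (k : ℕ)
    (hsat : ∀ x : L, (P : ℤ_[P]) • x ∈ N → x ∈ N) :
    Nat.card (N.map (plev P L k).mkQ) = P ^ (k * finrank ℤ_[P] N) := by
  have : Free ℤ_[P] N := Module.free_of_finite_type_torsion_free'
  rw [← (card_level P N k).2]
  have hsat' : ∀ (i : ℕ) (x : L), (P : ℤ_[P]) ^ i • x ∈ N → x ∈ N := by
    intro i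
    induction i with
    | zero => intro x hx; simpa using hx
    | succ i ih => intro x hx; rw [pow_succ, ← smul_smul] at hx; exact hsat x (ih _ hx)
  have hker : LinearMap.ker ((plev P L k).mkQ.comp N.subtype) =
      (plev P N k : Submodule ℤ_[P] N) := by
    ext z
    rw [LinearMap.mem_ker, LinearMap.comp_apply, Submodule.mkQ_apply, Submodule.Quotient.mk_eq_zero]
    constructor
    · intro h
      obtain ⟨y, hy⟩ := mem_plev.mp h
      have hy' : y ∈ N := hsat' k y (by rw [← hy]; exact z.2)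
      exact mem_plev.mpr ⟨⟨y, hy'⟩, Subtype.ext hy⟩
    · intro h
      obtain ⟨y, rfl⟩ := mem_plev.mp h
      exact mem_plev.mpr ⟨y, rfl⟩
  rw [← Nat.card_congr ((Submodule.quotEquivOfEq _ _ hker.symm).trans
    ((plev P L k).mkQ.comp N.subtype).quotKerEquivRange).toEquiv.symm,
    LinearMap.range_comp, Submodule.range_subtype]

/-- The image of `P ^ (k - c) L` modulo `P ^ k` is small. -/
theorem card_map_plev_le (k c : ℕ) :
    Nat.card ((plev P L (k - c) : Submodule ℤ_[P] L).map (plev P L k).mkQ) ≤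
      P ^ (c * finrank ℤ_[P] L) := by
  rw [← (card_level P L c).2]
  let g : L ⧸ (plev P L c : Submodule ℤ_[P] L) →ₗ[ℤ_[P]] L ⧸ (plev P L k : Submodule ℤ_[P] L) :=
    Submodule.liftQ _ (((P : ℤ_[P]) ^ (k - c)) • (plev P L k).mkQ) fun z hz => by
      obtain ⟨w, rfl⟩ := mem_plev.mp hz
      rw [LinearMap.mem_ker, LinearMap.smul_apply, ← map_smul, Submodule.mkQ_apply,
        Submodule.Quotient.mk_eq_zero, smul_smul, ← pow_add]
      exact plev_anti (i := k) (k := k - c + c) (by omega) (mem_plev.mpr ⟨w, rfl⟩)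
  have hle : (plev P L (k - c) : Submodule ℤ_[P] L).map (plev P L k).mkQ ≤ LinearMap.range g := by
    rintro _ ⟨x, hx, rfl⟩
    obtain ⟨y, rfl⟩ := mem_plev.mp hx
    exact ⟨Submodule.Quotient.mk y, (map_smul (plev P L k).mkQ _ y).symm⟩
  refine (Nat.card_le_card_of_injective (Submodule.inclusion hle)
    (Submodule.inclusion_injective hle)).trans ?_
  exact Nat.card_le_card_of_surjective g.rangeRestrict g.surjective_rangeRestrict

theorem card_sup_le (N N' : Submodule ℤ_[P] L) (k : ℕ) :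
    Nat.card ((N ⊔ N').map (plev P L k).mkQ) ≤
      Nat.card (N.map (plev P L k).mkQ) * Nat.card (N'.map (plev P L k).mkQ) := by
  rw [← Nat.card_prod]
  refine Nat.card_le_card_of_surjective
    (fun yz => (⟨(yz.1 : L ⧸ (plev P L k : Submodule ℤ_[P] L)) + yz.2,
      Submodule.map_sup N N' (plev P L k).mkQ ▸ Submodule.add_mem_sup yz.1.2 yz.2.2⟩ :
        (N ⊔ N').map (plev P L k).mkQ)) fun w => ?_
  obtain ⟨w, x, hx, rfl⟩ := w
  obtain ⟨y, hy, z, hz, rfl⟩ := Submodule.mem_sup.mp hx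
  exact ⟨(⟨_, y, hy, rfl⟩, ⟨_, z, hz, rfl⟩), Subtype.ext (map_add _ _ _).symm⟩

omit [Module.Free ℤ_[P] L] [Module.Finite ℤ_[P] L] in
/-- Artin-Rees: near the kernel of `f` modulo `P ^ k`. -/
theorem exists_artinRees {Q : Type} [AddCommGroup Q] [Module ℤ_[P] Q] [Module.Finite ℤ_[P] Q]
    (f : L →ₗ[ℤ_[P]] Q) :
    ∃ c : ℕ, ∀ (k : ℕ) (x : L), f x ∈ plev P Q k →
      x ∈ LinearMap.ker f ⊔ plev P L (k - c) := by
  obtain ⟨c, hc⟩ := Ideal.exists_pow_inf_eq_pow_smul (Ideal.span {(P : ℤ_[P])}) (LinearMap.range f)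
  refine ⟨c, fun k x hx => ?_⟩
  rcases lt_or_ge k c with hk | hk
  · refine Submodule.mem_sup_right (mem_plev.mpr ⟨x, ?_⟩)
    rw [Nat.sub_eq_zero_of_le hk.le, pow_zero, one_smul]
  obtain ⟨q, hq⟩ := mem_plev.mp hx
  have hmem : f x ∈ Ideal.span {(P : ℤ_[P])} ^ k • ⊤ ⊓ LinearMap.range f :=
    ⟨hq ▸ Submodule.smul_mem_smul (Ideal.pow_mem_pow (Ideal.mem_span_singleton_self _) k) trivial,
      LinearMap.mem_range_self f x⟩
  rw [hc k hk, Ideal.span_singleton_pow, Submodule.ideal_span_singleton_smul] at hmem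
  obtain ⟨z, hz, hzx⟩ := hmem
  obtain ⟨y, rfl⟩ := (Submodule.mem_inf.mp hz).2
  refine Submodule.mem_sup.mpr ⟨x - (P : ℤ_[P]) ^ (k - c) • y, ?_, _, mem_plev.mpr ⟨y, rfl⟩,
    sub_add_cancel _ _⟩
  rw [LinearMap.mem_ker, map_sub, map_smul, sub_eq_zero]
  exact hzx.symm

end Fermat.Agent.Mazur.Descent
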