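import Fermat.Agent.Mazur.Descent.Selmer

/-!
# The representation modulo `P ^ k` and inertia at `p`

The data of the count of cocycles at level `P ^ k`, and the affine action attached to a cocycle,
through which unipotent inertia acts by a `P`-group.
-/

noncomputable section

open scoped Pointwise
open Module

namespace Fermat.Agent.Mazur.Descent

local notation "Qbar" => AlgebraicClosure ℚ
local notation "Γℚ" => AlgebraicClosure ℚ ≃ₐ[ℚ] AlgebraicClosure ℚ

variable {p P : ℕ} [Fact P.Prime] {L : Type} [AddCommGroup L] [Module ℤ_[P] L]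
  [Module.Free ℤ_[P] L] [Module.Finite ℤ_[P] L] {ρ : Γℚ →* Module.End ℤ_[P] L} {d : ℕ}
  {AP : ValuationSubring Qbar} {φP : Γℚ} {C : Submodule ℤ_[P] L} {Ap : ValuationSubring Qbar}

variable (P L) in
/-- `L / P ^ k`. -/
abbrev Lev (k : ℕ) : Type := L ⧸ (plev P L k : Submodule ℤ_[P] L)

/-- Endomorphisms modulo `P ^ k`. -/
def endRed (k : ℕ) : Module.End ℤ_[P] L →* AddMonoid.End (Lev P L k) where
  toFun f := ((plev P L k).mapQ (plev P L k) f fun x hx => by
    obtain ⟨y, rfl⟩ := mem_plev.mp hx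
    exact mem_plev.mpr ⟨f y, map_smul f _ y⟩).toAddMonoidHom
  map_one' := AddMonoidHom.ext fun x => by
    obtain ⟨y, rfl⟩ := Submodule.Quotient.mk_surjective _ x
    rfl
  map_mul' f g := AddMonoidHom.ext fun x => by
    obtain ⟨y, rfl⟩ := Submodule.Quotient.mk_surjective _ x
    rfl

/-- The representation modulo `P ^ k`. -/
def rhoK (ρ : Γℚ →* Module.End ℤ_[P] L) (k : ℕ) : Γℚ →* AddMonoid.End (Lev P L k) :=
  (endRed k).comp ρ

omit [Module.Free ℤ_[P] L] [Module.Finite ℤ_[P] L] in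
theorem rhoK_mk (k : ℕ) (σ : Γℚ) (x : L) :
    rhoK ρ k σ ((plev P L k).mkQ x) = (plev P L k).mkQ (ρ σ x) := rfl

omit [Module.Free ℤ_[P] L] [Module.Finite ℤ_[P] L] in
theorem mkQ_eq_iff {k : ℕ} {x y : L} :
    (plev P L k).mkQ x = (plev P L k).mkQ y ↔ x - y ∈ (plev P L k : Submodule ℤ_[P] L) :=
  Submodule.Quotient.eq _

omit [Module.Free ℤ_[P] L] [Module.Finite ℤ_[P] L] in
theorem nsmul_lev (k : ℕ) (x : Lev P L k) : P ^ k • x = 0 := by
  obtain ⟨y, rfl⟩ := Submodule.Quotient.mk_surjective _ x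
  rw [← Submodule.Quotient.mk_smul, Submodule.Quotient.mk_eq_zero]
  exact pow_nsmul_mem_plev k y

/-- Exponents of the cyclotomic character modulo `P ^ k`. -/
def nuK (P k : ℕ) [Fact P.Prime] (σ : Γℚ) : ℕ := (PadicInt.toZModPow k (chi P σ : ℤ_[P])).val

theorem isCycloExp_nuK {k : ℕ} (hk : 0 < k) : IsCycloExp (P := P) (nuK P k) := fun σ => by
  rw [smul_zeta]
  refine epow_eq (x := (chi P σ : ℤ_[P])) 1 ?_
  rw [← PadicInt.cast_toZModPow 1 k hk, nuK, ZMod.natCast_val]

/-- The image of `C` modulo `P ^ k`. -/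
def levC (C : Submodule ℤ_[P] L) (k : ℕ) : AddSubgroup (Lev P L k) :=
  (C.map (plev P L k).mkQ).toAddSubgroup

variable (hd : DescentData p P L ρ d AP φP C Ap)

omit [Module.Free ℤ_[P] L] [Module.Finite ℤ_[P] L] in
include hd in
theorem countData (k : ℕ) : CountData P AP (nuK P k) (rhoK ρ k) (levC C k) where
  pgroup x := ⟨k, nsmul_lev k x⟩
  res σ := by
    obtain ⟨K, hK⟩ := hd.residual σ
    set B := (ρ σ - 1) * (ρ σ - algebraMap ℤ_[P] (Module.End ℤ_[P] L) (chi P σ : ℤ_[P])) with hB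
    have hiter : ∀ (i : ℕ) (x : L), (B ^ (K * i)) x ∈ (plev P L i : Submodule ℤ_[P] L) := by
      intro i
      induction i with
      | zero => intro x; exact mem_plev.mpr ⟨(B ^ (K * 0)) x, by simp⟩
      | succ i ih =>
        intro x
        obtain ⟨y, hy⟩ := hK x
        obtain ⟨z, hz⟩ := mem_plev.mp (ih y)
        rw [Nat.mul_succ, pow_add, Module.End.mul_apply, hy, map_smul, hz, smul_smul, ← pow_succ']
        exact mem_plev.mpr ⟨z, rfl⟩
    refine ⟨K * k, AddMonoidHom.ext fun q => ?_⟩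
    obtain ⟨x, rfl⟩ := Submodule.Quotient.mk_surjective _ q
    set B' := (rhoK ρ k σ - 1) * (rhoK ρ k σ - (nuK P k σ : AddMonoid.End (Lev P L k))) with hB'
    have h1 : ∀ z : L, B' ((plev P L k).mkQ z) = (plev P L k).mkQ (B z) := by
      intro z
      have hν : nuK P k σ • (plev P L k).mkQ z = (plev P L k).mkQ ((chi P σ : ℤ_[P]) • z) := by
        rw [← map_nsmul, eq_comm, mkQ_eq_iff, ← Nat.cast_smul_eq_nsmul ℤ_[P], ← sub_smul]
        exact smul_mem_plev (sub_toZModPow_mem k _) z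
      show rhoK ρ k σ (rhoK ρ k σ ((plev P L k).mkQ z) - nuK P k σ • (plev P L k).mkQ z) -
          (rhoK ρ k σ ((plev P L k).mkQ z) - nuK P k σ • (plev P L k).mkQ z) =
        (plev P L k).mkQ (ρ σ (ρ σ z - (chi P σ : ℤ_[P]) • z) - (ρ σ z - (chi P σ : ℤ_[P]) • z))
      rw [hν, rhoK_mk, ← map_sub, rhoK_mk, ← map_sub]
    have h2 : ∀ (i : ℕ) (z : L), (B' ^ i) ((plev P L k).mkQ z) = (plev P L k).mkQ ((B ^ i) z) := by
      intro i
      induction i with
      | zero => exact fun z => rfl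
      | succ i ih =>
        intro z
        rw [pow_succ, pow_succ, Module.End.mul_apply]
        show (B' ^ i) (B' _) = _
        rw [h1, ih]
    show (B' ^ (K * k)) ((plev P L k).mkQ x) = 0
    rw [h2, Submodule.mkQ_apply, Submodule.Quotient.mk_eq_zero]
    exact hiter k x
  inertia_C σ hσ := by
    rintro _ ⟨x, hx, rfl⟩
    rw [rhoK_mk, hd.inertia_C σ hσ x hx, ← map_nsmul, mkQ_eq_iff, ← Nat.cast_smul_eq_nsmul ℤ_[P],
      ← sub_smul]
    exact smul_mem_plev (sub_toZModPow_mem k _) x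
  inertia_quot σ hσ q := by
    obtain ⟨x, rfl⟩ := Submodule.Quotient.mk_surjective _ q
    exact ⟨ρ σ x - x, hd.inertia_quot σ hσ x, map_sub _ _ _⟩

/-! ### The affine action -/

/-- The affine action attached to a cocycle. -/
def affHom {M : Type} [AddCommGroup M] (r : Γℚ →* AddMonoid.End M) (c : Γℚ → M)
    (hc : ∀ σ τ : Γℚ, c (σ * τ) = c σ + r σ (c τ)) : Γℚ →* Equiv.Perm M :=
  MonoidHom.mk' (fun σ =>
    { toFun := fun x => r σ x + c σ
      invFun := fun x => r σ⁻¹ x + c σ⁻¹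
      left_inv := fun x => by
        show r σ⁻¹ (r σ x + c σ) + c σ⁻¹ = x
        have h1 := hc σ⁻¹ σ
        rw [inv_mul_cancel, cocycle_one hc] at h1
        have h2 : r σ⁻¹ (r σ x) = x := by
          show (r σ⁻¹ * r σ) x = x
          rw [← map_mul, inv_mul_cancel, map_one]; rfl
        rw [map_add, h2, add_assoc, add_comm (r σ⁻¹ (c σ)), ← h1, add_zero]
      right_inv := fun x => by
        show r σ (r σ⁻¹ x + c σ⁻¹) + c σ = x
        have h1 := hc σ σ⁻¹
        rw [mul_inv_cancel, cocycle_one hc] at h1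
        have h2 : r σ (r σ⁻¹ x) = x := by
          show (r σ * r σ⁻¹) x = x
          rw [← map_mul, mul_inv_cancel, map_one]; rfl
        rw [map_add, h2, add_assoc, add_comm (r σ (c σ⁻¹)), ← h1, add_zero] })
    fun σ τ => Equiv.ext fun x => by
      show r (σ * τ) x + c (σ * τ) = r σ (r τ x + c τ) + c σ
      rw [hc, map_mul, map_add, AddMonoid.End.coe_mul, Function.comp_apply]
      abel

theorem affHom_apply {M : Type} [AddCommGroup M] (r : Γℚ →* AddMonoid.End M) (c : Γℚ → M)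
    (hc : ∀ σ τ : Γℚ, c (σ * τ) = c σ + r σ (c τ)) (σ : Γℚ) (x : M) :
    affHom r c hc σ x = r σ x + c σ := rfl

/-- Unipotent endomorphisms of a group killed by `P ^ k` have `P`-power order. -/
theorem exists_pow_eq_one_of_unipotent {M : Type} [AddCommGroup M] {k : ℕ}
    (hM : ∀ x : M, P ^ k • x = 0)
    (u : AddMonoid.End M) {K : ℕ} (hu : (u - 1) ^ K = 0) : ∃ n : ℕ, u ^ P ^ n = 1 := by
  have hP : P.Prime := Fact.out
  have h0 : ∃ s, u ^ P ^ K - 1 = (P : AddMonoid.End M) * s := by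
    obtain ⟨r, hr⟩ := Commute.exists_add_pow_prime_pow_eq (x := u - 1) (y := 1) hP
      (Commute.one_right _) K
    rw [sub_add_cancel, one_pow, pow_eq_zero_of_le (Nat.lt_pow_self hP.one_lt).le hu, zero_add,
      mul_one, mul_assoc] at hr
    exact ⟨(u - 1) * r, by rw [hr]; abel⟩
  have h1 : ∀ i : ℕ, ∃ s, u ^ P ^ (K + i) - 1 = ((P : AddMonoid.End M) ^ (i + 1)) * s := by
    intro i
    induction i with
    | zero => simpa using h0
    | succ i ih =>
      obtain ⟨s, hs⟩ := ih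
      obtain ⟨r, hr⟩ := Commute.exists_add_pow_prime_eq (x := u ^ P ^ (K + i) - 1) (y := 1) hP
        (Commute.one_right _)
      rw [sub_add_cancel, ← pow_mul, ← pow_succ, one_pow, mul_one, hs] at hr
      have hc : Commute ((P : AddMonoid.End M) ^ (i + 1)) s :=
        ((Nat.cast_commute P s).pow_left _)
      rw [hc.mul_pow] at hr
      obtain ⟨e, he⟩ : ∃ e, P = e + 2 := ⟨P - 2, by have := hP.two_le; omega⟩
      refine ⟨(P : AddMonoid.End M) ^ ((i + 1) * (e + 1) - 1) * s ^ P + s * r, ?_⟩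
      rw [show K + (i + 1) = K + i + 1 by ring, hr]
      have hexp : (i + 1) * P = (i + 1 + 1) + ((i + 1) * (e + 1) - 1) := by
        have h2 : 1 ≤ (i + 1) * (e + 1) := Nat.one_le_iff_ne_zero.mpr (by positivity)
        have h3 : (i + 1) * P = (i + 1) * (e + 1) + (i + 1) := by rw [he]; ring
        omega
      rw [← pow_mul, hexp, pow_add, mul_add, pow_succ' (P : AddMonoid.End M) (i + 1)]
      noncomm_ring
  obtain ⟨s, hs⟩ := h1 k
  refine ⟨K + k, sub_eq_zero.mp ?_⟩
  rw [hs]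
  refine AddMonoidHom.ext fun x => ?_
  rw [pow_succ, mul_assoc, ← Nat.cast_pow]
  exact hM _

/-- The affine action of unipotent inertia is through a `P`-group. -/
theorem exists_pow_affHom_eq_one {M : Type} [AddCommGroup M] {k : ℕ} (hM : ∀ x : M, P ^ k • x = 0)
    (r : Γℚ →* AddMonoid.End M) (c : Γℚ → M) (hc : ∀ σ τ : Γℚ, c (σ * τ) = c σ + r σ (c τ))
    (σ : Γℚ) {K : ℕ} (hu : (r σ - 1) ^ K = 0) : ∃ n : ℕ, affHom r c hc σ ^ P ^ n = 1 := by
  obtain ⟨n, hn⟩ := exists_pow_eq_one_of_unipotent hM (r σ) hu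
  refine ⟨n + k, Equiv.ext fun x => ?_⟩
  rw [← map_pow, pow_add, pow_mul]
  set τ := σ ^ P ^ n with hτ
  have hrτ : r τ = 1 := by rw [hτ, map_pow, hn]
  have hpow : ∀ m : ℕ, r (τ ^ m) = 1 ∧ c (τ ^ m) = m • c τ := by
    intro m
    induction m with
    | zero => exact ⟨by rw [pow_zero, map_one], by rw [pow_zero, cocycle_one hc, zero_smul]⟩
    | succ m ih =>
      refine ⟨by rw [pow_succ, map_mul, ih.1, hrτ, one_mul], ?_⟩
      rw [pow_succ, hc, ih.1, ih.2, AddMonoid.End.coe_one, id, succ_nsmul]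
  obtain ⟨h1, h2⟩ := hpow (P ^ k)
  rw [affHom_apply, h1, h2, hM]
  simp

end Fermat.Agent.Mazur.Descent
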