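import Mathlib.Analysis.Normed.Group.Basic
import Fermat.Agent.Mazur.Descent.Bound

/-!
# The descent theorem

The index bound of `Bound`, uniform in the level, makes a fixed multiple of a Selmer cocycle a
coboundary modulo every `P ^ k`; compactness gives `DescentTheorem`.
-/

noncomputable section

open scoped Pointwise
open Module Filter

namespace Fermat.Agent.Mazur.Descent

local notation "Qbar" => AlgebraicClosure ℚ
local notation "Γℚ" => AlgebraicClosure ℚ ≃ₐ[ℚ] AlgebraicClosure ℚ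

variable {p P : ℕ} [Fact P.Prime] {L : Type} [AddCommGroup L] [Module ℤ_[P] L]
  [Module.Free ℤ_[P] L] [Module.Finite ℤ_[P] L] {ρ : Γℚ →* Module.End ℤ_[P] L} {d : ℕ}
  {AP : ValuationSubring Qbar} {φP : Γℚ} {C : Submodule ℤ_[P] L} {Ap : ValuationSubring Qbar}
  (hd : DescentData p P L ρ d AP φP C Ap)

omit [Module.Free ℤ_[P] L] [Module.Finite ℤ_[P] L] in
include hd in
/-- Finitely many elements detect the absence of invariants. -/
theorem exists_finset_fixed [IsNoetherian ℤ_[P] (Module.End ℤ_[P] L)] :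
    ∃ s : Finset (Module.End ℤ_[P] L), (∀ g ∈ s, ∃ σ, g = ρ σ - 1) ∧
      ∀ x : L, (∀ g ∈ s, g x = 0) → x = 0 := by
  obtain ⟨s, hsub, hspan⟩ := (Submodule.fg_span_iff_fg_span_finset_subset
    (Set.range fun σ => ρ σ - 1)).mp (IsNoetherian.noetherian (R := ℤ_[P]) _)
  refine ⟨s, fun g hg => ?_, fun x hx => hd.fixed x fun σ => sub_eq_zero.mp ?_⟩
  · obtain ⟨σ, hσ⟩ := hsub hg
    exact ⟨σ, hσ.symm⟩
  · have hmem : ρ σ - 1 ∈ Submodule.span ℤ_[P] (s : Set (Module.End ℤ_[P] L)) :=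
      hspan ▸ Submodule.subset_span ⟨σ, rfl⟩
    have hle : Submodule.span ℤ_[P] (s : Set (Module.End ℤ_[P] L)) ≤
        LinearMap.ker (LinearMap.applyₗ (R := ℤ_[P]) (M₂ := L) x) :=
      Submodule.span_le.mpr fun g hg => hx g hg
    exact hle hmem

include hd in
/-- The invariants modulo `P ^ k` are bounded. -/
theorem exists_fixed_bound :
    ∃ c : ℕ, ∀ (k : ℕ) (G : AddSubgroup (Lev P L k)),
      (∀ x ∈ G, ∀ σ, rhoK ρ k σ x = x) → Nat.card G ≤ P ^ (c * finrank ℤ_[P] L) := by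
  classical
  obtain ⟨s, hs, hsker⟩ := exists_finset_fixed hd
  let f : L →ₗ[ℤ_[P]] (s → L) := LinearMap.pi fun g => (g : Module.End ℤ_[P] L)
  obtain ⟨c, hc⟩ := exists_artinRees f
  refine ⟨c, fun k G hG => ?_⟩
  have hker : LinearMap.ker f = ⊥ := (Submodule.eq_bot_iff _).mpr fun x hx =>
    hsker x fun g hg => congrFun (LinearMap.mem_ker.mp hx) ⟨g, hg⟩
  have hle : G ≤ ((plev P L (k - c)).map (plev P L k).mkQ).toAddSubgroup := by
    intro q hq
    obtain ⟨x, rfl⟩ := Submodule.Quotient.mk_surjective _ q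
    have hy : ∀ g : s, ∃ y : L, (g : Module.End ℤ_[P] L) x = (P : ℤ_[P]) ^ k • y := fun g => by
      obtain ⟨σ, hσ⟩ := hs g g.2
      rw [hσ]
      exact mem_plev.mp (mkQ_eq_iff.mp (hG _ hq σ))
    choose y hy using hy
    have h := hc k x (mem_plev.mpr ⟨y, funext fun g => hy g⟩)
    rw [hker, bot_sup_eq] at h
    exact ⟨x, h, rfl⟩
  exact (Nat.card_le_card_of_injective _ (AddSubgroup.inclusion_injective hle)).trans
    (card_map_plev_le k c)

variable {t φ : Γℚ} (ht : TameGen p P Ap t φ)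

include hd ht in
/-- The part at `p` is at most `d`-dimensional. -/
theorem exists_wk_bound :
    ∃ c : ℕ, ∀ (k : ℕ), ∀ Wk : AddSubgroup (Lev P L k),
      (∀ x ∈ Wk, rhoK ρ k φ x - p • x ∈ rangeT ρ t k) →
        Nat.card Wk ≤ P ^ (k * d) * P ^ (c * finrank ℤ_[P] L) := by
  let R := LinearMap.range (ρ t - 1)
  let f : L →ₗ[ℤ_[P]] L ⧸ R := R.mkQ ∘ₗ (ρ φ - (p : ℤ_[P]) • 1)
  obtain ⟨c, hc⟩ := exists_artinRees f
  have hrk : finrank ℤ_[P] (LinearMap.ker f) ≤ d := by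
    have h1 := hd.rank_p t φ ht.mem ht.frob (fun σ hσ x hx => fix_inertia hd ht hx hσ)
      (LinearMap.ker f) fun x => by
        rw [LinearMap.mem_ker]
        exact Submodule.Quotient.mk_eq_zero R
    have h2 := Submodule.finrank_quotient_add_finrank (LinearMap.ker (ρ t - 1))
    rw [(ρ t - 1).quotKerEquivRange.finrank_eq, hd.finrank_L] at h2
    omega
  refine ⟨c, fun k Wk hW => ?_⟩
  have hle : Wk ≤ ((LinearMap.ker f ⊔ plev P L (k - c)).map (plev P L k).mkQ).toAddSubgroup := by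
    intro q hq
    obtain ⟨x, rfl⟩ := Submodule.Quotient.mk_surjective _ q
    obtain ⟨z, hz⟩ := mem_rangeT.mp (hW _ hq)
    obtain ⟨z, rfl⟩ := Submodule.Quotient.mk_surjective _ z
    have h1 : (plev P L k).mkQ (ρ t z - z) = (plev P L k).mkQ (ρ φ x - (p : ℤ_[P]) • x) := by
      rw [map_sub, map_sub, map_smul, Nat.cast_smul_eq_nsmul]
      exact hz
    obtain ⟨y, hy⟩ := mem_plev.mp (mkQ_eq_iff.mp h1)
    refine ⟨x, hc k x (mem_plev.mpr ⟨-R.mkQ y, ?_⟩), rfl⟩
    show R.mkQ (ρ φ x - (p : ℤ_[P]) • x) = _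
    rw [smul_neg, ← map_smul, ← hy, map_sub, map_sub, sub_eq_add_neg (R.mkQ (ρ t z - z))]
    have h0 : R.mkQ (ρ t z - z) = 0 := (Submodule.Quotient.mk_eq_zero R).mpr ⟨z, rfl⟩
    rw [h0, zero_add, map_sub, neg_neg]
  refine (Nat.card_le_card_of_injective _ (AddSubgroup.inclusion_injective hle)).trans ?_
  refine (card_sup_le _ _ k).trans
      (Nat.mul_le_mul ((card_map_le _ k).trans ?_) (card_map_plev_le k c))
  exact Nat.pow_le_pow_right (Fact.out : P.Prime).pos (Nat.mul_le_mul_left k hrk)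

include hd ht in
/-- A bounded multiple of a Selmer cocycle is a coboundary modulo every `P ^ k`. -/
theorem exists_level_bound :
    ∃ n : ℕ, 0 < n ∧ ∀ c : Γℚ → L, IsSelmerCocycle p P L ρ AP C c → ∀ k : ℕ,
      ∃ m : L, ∀ σ, n • c σ - (ρ σ m - m) ∈ (plev P L k : Submodule ℤ_[P] L) := by
  obtain ⟨c₁, hc₁⟩ := exists_fixed_bound hd
  obtain ⟨c₂, hc₂⟩ := exists_wk_bound hd ht
  set D := finrank ℤ_[P] L with hD
  set N₀ := P ^ (c₁ * D) * P ^ (c₂ * D) with hN₀
  refine ⟨N₀.factorial, N₀.factorial_pos, fun c hc k => ?_⟩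
  rcases Nat.eq_zero_or_pos k with rfl | hk
  · exact ⟨0, fun σ => mem_plev.mpr ⟨_, by rw [pow_zero, one_smul]⟩⟩
  let Wk : AddSubgroup (Lev P L k) :=
    (rangeT ρ t k).comap (rhoK ρ k φ - (p : AddMonoid.End (Lev P L k)))
  let G : AddSubgroup (Lev P L k) :=
    { carrier := {x | ∀ σ, rhoK ρ k σ x = x}
      zero_mem' := fun σ => map_zero _
      add_mem' := fun {a b} ha hb σ => by rw [map_add, ha σ, hb σ]
      neg_mem' := fun {a} ha σ => by rw [map_neg, ha σ] }
  obtain ⟨hne, hle⟩ := relIndex_bound hd ht hk Wk (fun x => Iff.rfl) G (fun x => Iff.rfl)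
  set r := (cobK ρ k).range.relIndex (selK p ρ AP C k) with hr
  have hrle : r ≤ N₀ := by
    have hC : Nat.card (levC C k) = P ^ (k * d) := by
      rw [← hd.finrank_C]; exact card_map_eq C k hd.saturated
    have hM : Nat.card (Lev P L k) = P ^ (k * d) * P ^ (k * d) := by
      rw [(card_level P L k).2, hd.finrank_L, ← pow_add]; ring_nf
    have h1 : r * (P ^ (k * d) * P ^ (k * d)) ≤ N₀ * (P ^ (k * d) * P ^ (k * d)) :=
      calc r * (P ^ (k * d) * P ^ (k * d)) ≤ Nat.card (levC C k) * Nat.card G *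
          Nat.card Wk := hM ▸ hle
        _ ≤ P ^ (k * d) * P ^ (c₁ * D) * (P ^ (k * d) * P ^ (c₂ * D)) :=
          Nat.mul_le_mul (Nat.mul_le_mul hC.le (hc₁ k G fun x hx => hx)) (hc₂ k Wk fun x hx => hx)
        _ = N₀ * (P ^ (k * d) * P ^ (k * d)) := by rw [hN₀]; ring
    exact Nat.le_of_mul_le_mul_right h1
      (Nat.mul_pos (pow_pos (Fact.out : P.Prime).pos _) (pow_pos (Fact.out : P.Prime).pos _))
  obtain ⟨e, he⟩ := Nat.dvd_factorial (Nat.pos_of_ne_zero hne) hrle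
  have hS : (fun σ => (plev P L k).mkQ (c σ)) ∈ selK p ρ AP C k := ⟨c, hc, rfl⟩
  have hmem := ((cobK ρ k).range.addSubgroupOf (selK p ρ AP C k)).nsmul_index_mem ⟨_, hS⟩
  obtain ⟨m, hm⟩ := AddSubgroup.nsmul_mem _ hmem e
  obtain ⟨x, rfl⟩ := Submodule.Quotient.mk_surjective _ m
  refine ⟨x, fun σ => ?_⟩
  rw [← mkQ_eq_iff, map_nsmul, map_sub, he, mul_comm, mul_smul]
  exact (congrFun hm σ).symm

end Fermat.Agent.Mazur.Descent

namespace Fermat.Agent.Mazur

open Descent Module Filter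

/-- The descent theorem: Selmer cocycles are torsion modulo coboundaries. -/
theorem descentTheorem : DescentTheorem := by
  intro p P _ _ _ htame L _ _ _ _ ρ d AP φP C Ap hd c hc
  obtain ⟨t, φ, ht1, ht2, ht3⟩ := htame Ap hd.over_p
  obtain ⟨n, hn, hlev⟩ := exists_level_bound hd ⟨ht1, ht2, ht3⟩
  refine ⟨n, hn, ?_⟩
  choose m hm using hlev c hc
  let b := Free.chooseBasis ℤ_[P] L
  obtain ⟨u, s, hs, hlim⟩ := CompactSpace.tendsto_subseq fun k => b.equivFun (m k)
  refine ⟨b.equivFun.symm u, fun σ => sub_eq_zero.mp (eq_zero_of_forall_plev (P := P) fun k => ?_)⟩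
  have hev : ∀ᶠ j in atTop, ∀ i, u i - b.equivFun (m (s j)) i ∈ Ideal.span {(P : ℤ_[P]) ^ k} := by
    refine eventually_all.mpr fun i => ?_
    have h1 := (tendsto_pi_nhds.mp hlim i).const_sub (u i) |>.norm
    rw [sub_self, norm_zero] at h1
    have hpos : (0 : ℝ) < (P : ℝ) ^ (-(k : ℤ)) :=
      zpow_pos (by exact_mod_cast (Fact.out : P.Prime).pos) _
    filter_upwards [h1.eventually (eventually_le_nhds hpos)] with j hj
    exact (PadicInt.norm_le_pow_iff_mem_span_pow _ k).mp hj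
  obtain ⟨j, hj, hkj⟩ := (hev.and (eventually_ge_atTop k)).exists
  have hdiff : b.equivFun.symm u - m (s j) ∈ (plev P L k : Submodule ℤ_[P] L) := by
    rw [← b.equivFun.symm_apply_apply (m (s j)), ← map_sub, b.equivFun_symm_apply]
    exact Submodule.sum_mem _ fun i _ => smul_mem_plev (hj i) _
  obtain ⟨w, hw⟩ := mem_plev.mp hdiff
  have e : n • c σ - (ρ σ (b.equivFun.symm u) - b.equivFun.symm u) =
      (n • c σ - (ρ σ (m (s j)) - m (s j))) - (ρ σ (b.equivFun.symm u - m (s j)) -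
        (b.equivFun.symm u - m (s j))) := by
    rw [map_sub]; abel
  rw [e]
  refine sub_mem (plev_anti (hkj.trans (hs.id_le j)) (hm (s j) σ)) (sub_mem ?_ hdiff)
  rw [hw, map_smul]
  exact mem_plev.mpr ⟨_, rfl⟩

end Fermat.Agent.Mazur
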