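import Fermat.Agent.Mazur.Descent.Count
import Fermat.Agent.Mazur.Descent.Lattice

/-!
# Selmer cocycles are of unit type at `P`

The valuation of the restriction to inertia of a coboundary gives an equivariant map `L/C → C(-1)`,
which vanishes; then the valuation of any Selmer cocycle is fixed by Frobenius in `C(-1)`, hence
zero.
-/

noncomputable section

open scoped Pointwise
open Module

namespace Fermat.Agent.Mazur.Descent

local notation "Qbar" => AlgebraicClosure ℚ
local notation "Γℚ" => AlgebraicClosure ℚ ≃ₐ[ℚ] AlgebraicClosure ℚ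

variable {p P : ℕ} [Fact P.Prime] {L : Type} [AddCommGroup L] [Module ℤ_[P] L]
  [Module.Free ℤ_[P] L] [Module.Finite ℤ_[P] L] {ρ : Γℚ →* Module.End ℤ_[P] L} {d : ℕ}
  {AP : ValuationSubring Qbar} {φP : Γℚ} {C : Submodule ℤ_[P] L} {Ap : ValuationSubring Qbar}

omit [Module.Finite ℤ_[P] L] in
/-- Functionals separate points. -/
theorem ext_functional {x y : L} (h : ∀ ψ : L →ₗ[ℤ_[P]] ℤ_[P], ψ x = ψ y) : x = y := by
  let b := Free.chooseBasis ℤ_[P] L
  exact b.ext_elem fun i => h (b.coord i)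

/-- `v` is the valuation of `a : Γ → L` along every functional. -/
def IsVVal (A : ValuationSubring Qbar) (a : Γℚ → L) (v : L) : Prop :=
  ∀ ψ : L →ₗ[ℤ_[P]] ℤ_[P], IsVal A (fun σ => ψ (a σ)) (ψ v)

/-- A vector valued twisted homomorphism has a valuation. -/
theorem exists_isVVal {A : ValuationSubring Qbar} (hA : A.LiesOverPrime P) {a : Γℚ → L}
    (ha : ∀ ψ : L →ₗ[ℤ_[P]] ℤ_[P], IsTwisted A fun σ => ψ (a σ)) :
    ∃ v : L, IsVVal (P := P) A a v := by
  classical
  let b := Free.chooseBasis ℤ_[P] L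
  choose w hw using fun i => exists_isVal hA (ha (b.coord i))
  refine ⟨∑ i, w i • b i, fun ψ => ?_⟩
  have key : ∀ s : Finset (Free.ChooseBasisIndex ℤ_[P] L),
      IsVal A (fun σ => ∑ i ∈ s, ψ (b i) * b.coord i (a σ)) (∑ i ∈ s, ψ (b i) * w i) := by
    intro s
    induction s using Finset.induction_on with
    | empty =>
      simp only [Finset.sum_empty]
      exact isVal_zero
    | insert i s hi ih =>
      simp only [Finset.sum_insert hi]
      exact ((hw i).smul (ψ (b i))).add ih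
  have h := key Finset.univ
  rw [map_sum]
  simp only [map_smul, smul_eq_mul]
  rw [show (∑ i, w i * ψ (b i)) = ∑ i, ψ (b i) * w i from Finset.sum_congr rfl fun i _ =>
      mul_comm _ _]
  refine h.congr fun σ _ => ?_
  conv_rhs => rw [← b.sum_repr (a σ), map_sum]
  refine Finset.sum_congr rfl fun i _ => ?_
  rw [map_smul, smul_eq_mul, mul_comm]
  rfl

variable (hd : DescentData p P L ρ d AP φP C Ap)

omit [Module.Free ℤ_[P] L] [Module.Finite ℤ_[P] L] in
include hd in
/-- A functional of a Selmer cocycle is a twisted homomorphism on inertia at `P`. -/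
theorem isTwisted_functional {c : Γℚ → L} (hc : IsSelmerCocycle p P L ρ AP C c)
    (ψ : L →ₗ[ℤ_[P]] ℤ_[P]) : IsTwisted AP fun σ => ψ (c σ) := by
  refine ⟨fun σ hσ τ hτ => ?_, fun k => ?_⟩
  · show ψ (c (σ * τ)) = ψ (c σ) + _ * ψ (c τ)
    rw [hc.cocycle, map_add, hd.inertia_C σ hσ _ (hc.at_P τ hτ), map_smul, smul_eq_mul]
  · obtain ⟨E, hE, hcont⟩ := hc.continuous k
    refine ⟨E, hE, fun σ _ h => ?_⟩
    obtain ⟨y, hy⟩ := hcont σ h
    show ψ (c σ) ∈ _
    rw [hy, map_smul, smul_eq_mul]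
    exact Ideal.mul_mem_right _ _ (Ideal.mem_span_singleton_self _)

omit [Module.Free ℤ_[P] L] [Module.Finite ℤ_[P] L] in
include hd in
theorem isSelmerCocycle_coboundary (m : L) :
    IsSelmerCocycle p P L ρ AP C fun σ => ρ σ m - m where
  cocycle σ τ := by
    show ρ (σ * τ) m - m = (ρ σ m - m) + ρ σ (ρ τ m - m)
    rw [map_mul, map_sub, Module.End.mul_apply]; abel
  continuous k := by
    obtain ⟨E, hE, h⟩ := hd.continuous k
    exact ⟨E, hE, fun σ hσ => h σ hσ m⟩
  unramified ℓ h1 h2 h3 A hA σ hσ := by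
    show ρ σ m - m = 0
    rw [hd.unramified ℓ h1 h2 h3 A hA σ hσ, Module.End.one_apply, sub_self]
  at_P σ hσ := hd.inertia_quot σ hσ m

omit [Free ℤ_[P] L] [Module.Finite ℤ_[P] L] in
/-- Conjugation by a decomposition element `φ` multiplies valuations by `χ(φ)⁻¹`. -/
theorem chi_val_smul_conj {A : ValuationSubring Qbar} {a a' : Γℚ → L} {v : L} {φ : Γℚ}
    (f : L →ₗ[ℤ_[P]] L) (hφ : φ ∈ A.decompositionSubgroup ℚ) (hv : IsVVal (P := P) A a v)
    (ha : ∀ σ ∈ A.inertiaSubgroupIn ℚ, a' σ = f (a (φ⁻¹ * σ * φ)))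
    (ψ : L →ₗ[ℤ_[P]] ℤ_[P]) :
    IsVal A (fun σ => (chi P φ : ℤ_[P]) * ψ (a' σ)) (ψ (f v)) :=
  ((hv (ψ.comp f)).conj hφ).congr fun σ hσ => by rw [ha σ hσ]; rfl

include hd in
/-- The valuation of a Selmer cocycle vanishes. -/
theorem isVVal_selmer {c : Γℚ → L} (hc : IsSelmerCocycle p P L ρ AP C c) :
    IsVVal (P := P) AP c 0 := by
  have hφ : φP ∈ AP.decompositionSubgroup ℚ := (Gal.isFrobeniusAt_iff.mp hd.frob_P).1
  have hex : ∀ c : Γℚ → L, IsSelmerCocycle p P L ρ AP C c → ∃ v, IsVVal (P := P) AP c v :=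
    fun c hc => exists_isVVal hd.over_P (isTwisted_functional hd hc)
  choose E hE using fun m => hex _ (isSelmerCocycle_coboundary hd m)
  have huniq : ∀ {a : Γℚ → L} {v w : L}, IsVVal (P := P) AP a v → IsVVal (P := P) AP a w → v = w :=
    fun hv hw => ext_functional fun ψ => (hv ψ).unique hd.over_P (hw ψ)
  -- valuations lie in `C`
  have hEadd : ∀ m m', E (m + m') = E m + E m' := fun m m' => huniq (hE _) fun ψ => by
    rw [map_add]
    refine ((hE m ψ).add (hE m' ψ)).congr fun σ _ => ?_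
    show ψ (ρ σ m - m) + ψ (ρ σ m' - m') = ψ (ρ σ (m + m') - (m + m'))
    rw [← map_add, (ρ σ).map_add]; congr 1; abel
  have hEsmul : ∀ (r : ℤ_[P]) m, E (r • m) = r • E m := fun r m => huniq (hE _) fun ψ => by
    rw [map_smul]
    refine ((hE m ψ).smul r).congr fun σ _ => ?_
    show r * ψ (ρ σ m - m) = ψ (ρ σ (r • m) - r • m)
    rw [map_smul (ρ σ), ← smul_sub, map_smul, smul_eq_mul]
  let f : L →ₗ[ℤ_[P]] L := { toFun := E, map_add' := hEadd, map_smul' := hEsmul }
  have hker : ∀ x ∈ C, f x = 0 := by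
    intro x hx
    refine huniq (hE x) fun ψ => ?_
    have h1 : IsVal AP (fun σ => (chi P σ : ℤ_[P]) - 1) 0 := fun k => by
      refine ⟨0, ⟨zeta P k, ?_, fun σ _ => ?_⟩, by simp⟩
      · rw [zpow_zero, div_one, (zeta_prim P k).pow_eq_one]; exact IsUnitAt.one
      · rw [smul_zeta, ← epow_natCast]
        conv_rhs =>
            rw [← pow_one (zeta P k), ← epow_natCast, ← epow_add, Nat.cast_one, sub_add_cancel]
        exact (epow_eq k (by rw [map_natCast, ZMod.natCast_zmod_val])).trans rfl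
    have h2 := h1.smul (ψ x)
    rw [mul_zero] at h2
    rw [map_zero]
    refine h2.congr fun σ hσ => ?_
    show ψ x * ((chi P σ : ℤ_[P]) - 1) = ψ (ρ σ x - x)
    rw [hd.inertia_C σ hσ x hx, map_sub, map_smul, smul_eq_mul]
    ring
  have hzero : ∀ (a : Γℚ → L) (v : L), IsVVal (P := P) AP a v →
      (∀ σ ∈ AP.inertiaSubgroupIn ℚ, a σ ∈ C) → v ∈ C := by
    intro a v hv ha
    have : Module.IsTorsionFree ℤ_[P] (L ⧸ C) := by
      refine Module.isTorsionFree_iff_smul_eq_zero.mpr fun r y hry => ?_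
      by_contra! hne
      obtain ⟨hr, hy⟩ := hne
      obtain ⟨x, rfl⟩ := Submodule.Quotient.mk_surjective _ y
      rw [← Submodule.Quotient.mk_smul, Submodule.Quotient.mk_eq_zero,
        PadicInt.unitCoeff_spec hr, ← smul_smul, C.smul_mem_iff_of_isUnit (Units.isUnit _)] at hry
      have hsat : ∀ (i : ℕ) (x : L), (P : ℤ_[P]) ^ i • x ∈ C → x ∈ C := by
        intro i
        induction i with
        | zero => intro x hx; simpa using hx
        | succ i ih => intro x hx; rw [pow_succ, ← smul_smul] at hx; exact hd.saturated x (ih _ hx)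
      exact hy ((Submodule.Quotient.mk_eq_zero C).mpr (hsat _ _ hry))
    have : Module.Free ℤ_[P] (L ⧸ C) := Module.free_of_finite_type_torsion_free'
    let b := Free.chooseBasis ℤ_[P] (L ⧸ C)
    refine (Submodule.Quotient.mk_eq_zero C).mp
        (b.repr.map_eq_zero_iff.mp (Finsupp.ext fun i => ?_))
    refine (hv ((b.coord i).comp C.mkQ)).unique hd.over_P (isVal_zero.congr fun σ hσ => ?_)
    show (0 : ℤ_[P]) = b.coord i (C.mkQ (a σ))
    rw [Submodule.mkQ_apply, (Submodule.Quotient.mk_eq_zero C).mpr (ha σ hσ), map_zero]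
  have hf0 : f = 0 :=
      hd.frob_hom f hker (fun m => hzero _ _ (hE m) fun σ hσ => hd.inertia_quot σ hσ m)
    fun m => ext_functional fun ψ => by
      refine IsVal.unique hd.over_P (a := fun σ => (chi P φP : ℤ_[P]) * ψ (ρ σ (ρ φP m) - ρ φP m))
        ?_ (chi_val_smul_conj (ρ φP) hφ (hE m) (fun σ _ => ?_) ψ)
      · rw [map_smul]
        exact (hE (ρ φP m) ψ).smul _
      · show ρ σ (ρ φP m) - ρ φP m = ρ φP (ρ (φP⁻¹ * σ * φP) m - m)
        rw [map_sub, ← Module.End.mul_apply, ← Module.End.mul_apply (ρ φP), ← map_mul, ← map_mul]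
        congr 3
        group
  obtain ⟨v, hv⟩ := hex c hc
  suffices v = 0 by rw [this] at hv; exact hv
  refine hd.frob_C v (hzero _ _ hv hc.at_P) (ext_functional (P := P) fun ψ => ?_).symm
  refine IsVal.unique hd.over_P (a := fun σ => (chi P φP : ℤ_[P]) * ψ (c σ)) ?_ ?_
  · rw [map_smul]
    exact (hv ψ).smul _
  · have h1 := chi_val_smul_conj (a' := fun σ => ρ φP (c (φP⁻¹ * σ * φP))) (ρ φP) hφ hv
      (fun σ _ => rfl) ψ
    have h2 := ((hE (c φP) ψ).smul (-(chi P φP : ℤ_[P])))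
    rw [show E (c φP) = 0 from LinearMap.congr_fun hf0 (c φP), map_zero, mul_zero] at h2
    have h3 := h1.add h2
    rw [add_zero] at h3
    refine h3.congr fun σ hσ => ?_
    show _ * ψ (ρ φP (c (φP⁻¹ * σ * φP))) + -_ * ψ (ρ σ (c φP) - c φP) = _ * ψ (c σ)
    have h4 : φP * (φP⁻¹ * σ * φP) = σ * φP := by group
    have h5 := hc.cocycle φP (φP⁻¹ * σ * φP)
    rw [h4, hc.cocycle] at h5
    rw [neg_mul, ← sub_eq_add_neg, ← mul_sub, ← map_sub]
    congr 2
    rw [eq_comm, ← sub_eq_zero]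
    rw [← sub_eq_zero] at h5
    rw [← h5]
    abel

include hd in
/-- Reductions of Selmer cocycles are of unit type at `P`. -/
theorem unitType_reduction {c : Γℚ → L} (hc : IsSelmerCocycle p P L ρ AP C c) (k : ℕ) :
    UnitType AP fun σ => ((plev P L k).mkQ (c σ)) := by
  classical
  intro ψ
  let b := Free.chooseBasis ℤ_[P] L
  let g : L →+ Additive Qbarˣ := ψ.comp (plev P L k).mkQ.toAddMonoidHom
  have hroot : ∀ x, ((Additive.toMul (g x) : Qbarˣ) : Qbar) ^ P ^ k = 1 := fun x => by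
    rw [← Units.val_pow_eq_pow_val, ← toMul_nsmul, ← map_nsmul]
    have : g (P ^ k • x) = 0 := by
      show ψ ((plev P L k).mkQ (P ^ k • x)) = 0
      rw [Submodule.mkQ_apply,
          (Submodule.Quotient.mk_eq_zero _).mpr (pow_nsmul_mem_plev k x), map_zero]
    rw [this]; rfl
  choose n hn using fun i => (zeta_prim P k).eq_pow_of_pow_eq_one (hroot (b i))
  let ψ' : L →ₗ[ℤ_[P]] ℤ_[P] := ∑ i, (n i : ℤ_[P]) • b.coord i
  have hcomp : ∀ x, ((Additive.toMul (g x) : Qbarˣ) : Qbar) = epow k (ψ' x) := by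
    intro x
    have hterm : ∀ (r : ℤ_[P]) i,
        ((Additive.toMul (g (r • b i)) : Qbarˣ) : Qbar) = epow k (r * (n i : ℤ_[P])) := by
      intro r i
      have h1 : g (r • b i) = (PadicInt.toZModPow k r).val • g (b i) := by
        rw [← map_nsmul, ← sub_eq_zero, ← map_sub]
        show ψ ((plev P L k).mkQ _) = 0
        rw [Submodule.mkQ_apply, (Submodule.Quotient.mk_eq_zero _).mpr, map_zero]
        rw [← Nat.cast_smul_eq_nsmul ℤ_[P], ← sub_smul]
        exact smul_mem_plev (sub_toZModPow_mem k r) _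
      rw [h1, toMul_nsmul, Units.val_pow_eq_pow_val, ← (hn i).2, ← epow_natCast, ← epow_mul]
    have hsum : ∀ s : Finset (Free.ChooseBasisIndex ℤ_[P] L),
        ((Additive.toMul (g (∑ i ∈ s, b.repr x i • b i)) : Qbarˣ) : Qbar) =
          epow k (∑ i ∈ s, b.repr x i * (n i : ℤ_[P])) := by
      intro s
      induction s using Finset.induction_on with
      | empty => simp
      | insert i s hi ih =>
        rw [Finset.sum_insert hi, Finset.sum_insert hi, map_add, toMul_add, Units.val_mul, hterm,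
          ih, ← epow_add]
    have h := hsum Finset.univ
    rw [b.sum_repr] at h
    rw [h]
    congr 1
    simp [ψ', mul_comm]
  obtain ⟨α, hα, hα'⟩ :=
      (by simpa using isVVal_selmer hd hc ψ' : IsVal AP (fun σ => ψ' (c σ)) 0).exists_unit k
  refine ⟨α, hα, fun σ hσ => ?_⟩
  rw [hα' σ hσ, ← hcomp]
  rfl

end Fermat.Agent.Mazur.Descent
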